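/-
Program C (S55), package C9b, leaf L2-P (DEC), helper85: proof of `H93.DecStatement`.

For a number field `F ⊆ Qb` and a valuation subring `A` of `Qb` over a prime `ℓ` there is an
`F`-Frobenius `φ` (an element of the decomposition group of `A` fixing `F`, acting on the residue
field of the ring of all algebraic integers as `x ↦ x ^ q`, `q` the cardinality of the residue
field of `F`), and every element of the decomposition group fixing `F` agrees with a power of
`φ` on every finite level in which `A` is unramified.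

Route: `Ideal.Quotient.stabilizerHom_surjective_of_profinite` over the invariants of
`Gal(Qb/F)`, Galois theory of finite fields (`exists_pow_card_pow_of_finite`), and the landed
dictionary `S14.H4.exists_lift_inertia` + `S55.H43.mem_inertiaSubgroupIn_iff`.
-/
import Mathlib
import Fermat.Agent.S14.H4.Dictionary
import Fermat.Agent.S55.H43.Levels
import Fermat.Agent.S55.H93.L2PLeaves

set_option autoImplicit false

namespace Fermat.Agent.S55.H85

open NumberField
open scoped Pointwise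
open Fermat.Agent.S54.H94 Fermat.Agent.S14.H4

local notation "Qb" => AlgebraicClosure ℚ
local notation "Γ" => (AlgebraicClosure ℚ ≃ₐ[ℚ] AlgebraicClosure ℚ)
local notation "𝓑" => integralClosure ℤ (AlgebraicClosure ℚ)

attribute [local instance] Fermat.Agent.S54.H94.topB Fermat.Agent.S54.H94.discreteTopB

/-- Galois theory of finite fields, elementwise: an automorphism of an algebraic extension `κ`
of a finite field `K` acts on any finite subset of `κ` as a power of the `#K`-Frobenius. -/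
theorem exists_pow_card_pow_of_finite {K κ : Type*} [Field K] [Fintype K] [Field κ] [Algebra K κ]
    [Algebra.IsAlgebraic K κ] (δ : κ ≃ₐ[K] κ) (T : Set κ) (hT : T.Finite) :
    ∃ n : ℕ, ∀ x ∈ T, δ x = x ^ (Fintype.card K ^ n) := by
  have hTf : Finite T := hT
  let L : IntermediateField K κ := IntermediateField.adjoin K T
  have hfd : FiniteDimensional K L :=
    IntermediateField.finiteDimensional_adjoin
      fun x _ => (Algebra.IsAlgebraic.isAlgebraic x).isIntegral
  have hLf : Finite L := Module.finite_of_finite K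
  obtain ⟨n, hn⟩ :=
    (FiniteField.bijective_frobeniusAlgEquivOfAlgebraic_pow K L).2 (δ.restrictNormal L)
  refine ⟨n.1, fun x hx => ?_⟩
  have hxL : x ∈ L := IntermediateField.subset_adjoin K T hx
  have h1 := AlgEquiv.restrictNormal_commutes δ L ⟨x, hxL⟩
  have h2 : (FiniteField.frobeniusAlgEquivOfAlgebraic K L ^ n.1) ⟨x, hxL⟩ =
      (⟨x, hxL⟩ : L) ^ (Fintype.card K ^ n.1) := by
    rw [AlgEquiv.coe_pow, FiniteField.coe_frobeniusAlgEquivOfAlgebraic_iterate]
  have h3 : (δ.restrictNormal L) ⟨x, hxL⟩ = (⟨x, hxL⟩ : L) ^ (Fintype.card K ^ n.1) := by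
    rw [← hn]
    exact h2
  rw [h3] at h1
  simpa using h1.symm

/-- Elements of the decomposition group stabilise the prime of `𝓑` cut out by `A`. -/
theorem smul_mem_primeB_iff {A : ValuationSubring Qb} {σ : Γ}
    (hσ : σ ∈ A.decompositionSubgroup ℚ) (b : 𝓑) : σ • b ∈ primeB A ↔ b ∈ primeB A := by
  rw [mem_primeB_iff, mem_primeB_iff]
  exact Fermat.Agent.S05.H63.apply_mem_nonunits_iff_of_mem_decompositionSubgroup hσ

/-- An automorphism stabilising the prime of `𝓑` cut out by `A` lies in the decomposition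
group of `A`. -/
theorem mem_decompositionSubgroup_of_primeB {A : ValuationSubring Qb} (σ : Γ)
    (hσ : ∀ b : 𝓑, σ • b ∈ primeB A ↔ b ∈ primeB A) : σ ∈ A.decompositionSubgroup ℚ := by
  have hunit : ∀ b : 𝓑, IsUnit (inclB A (σ • b)) ↔ IsUnit (inclB A b) := by
    intro b
    rw [isUnit_inclB_iff, isUnit_inclB_iff, ← mem_primeB_iff, ← mem_primeB_iff, hσ b]
  have hmem : ∀ x ∈ A, σ x ∈ A :=
    map_mem_of_forall_isUnit σ fun s hs => (hunit s).mpr hs
  have hmem' : ∀ x ∈ A, σ⁻¹ x ∈ A :=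
    map_mem_of_forall_isUnit σ⁻¹ fun s hs => by
      rw [← hunit, smul_inv_smul]
      exact hs
  rw [MulAction.mem_stabilizer_iff]
  ext x
  rw [ValuationSubring.mem_pointwise_smul_iff_inv_smul_mem]
  constructor
  · intro h
    have h2 : σ • (σ⁻¹ • x) ∈ A := hmem _ h
    rwa [smul_inv_smul] at h2
  · intro h
    exact hmem' x h

/-- An automorphism acting trivially modulo the prime of `𝓑` cut out by `A` lies in the inertia
group of `A`. -/
theorem mem_inertiaSubgroupIn_of_primeB {A : ValuationSubring Qb} (σ : Γ)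
    (hσ : ∀ b : 𝓑, σ • b - b ∈ primeB A) : σ ∈ A.inertiaSubgroupIn ℚ := by
  rw [Fermat.Agent.S55.H43.mem_inertiaSubgroupIn_iff]
  intro x hx
  obtain ⟨b, s, hs, h⟩ := exists_inclB_mul_eq (⟨x, hx⟩ : A)
  have h' : x * (s : Qb) = (b : Qb) := congrArg Subtype.val h
  have hsQ : s ∉ primeB A := by
    rw [mem_primeB_iff]
    exact (isUnit_inclB_iff s).mp hs
  have hσsQ : σ • s ∉ primeB A := fun h1 => hsQ (by
    have h2 := (primeB A).sub_mem h1 (hσ s)
    simpa using h2)
  have hσs : IsUnit (inclB A (σ • s)) := by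
    rw [isUnit_inclB_iff, ← mem_primeB_iff]
    exact hσsQ
  obtain ⟨t, ht⟩ := (hσs.mul hs).exists_right_inv
  have ht' : σ (s : Qb) * (s : Qb) * (t : Qb) = 1 := congrArg Subtype.val ht
  have hnum : (σ • b - b) * s - b * (σ • s - s) ∈ primeB A :=
    (primeB A).sub_mem ((primeB A).mul_mem_right _ (hσ b)) ((primeB A).mul_mem_left _ (hσ s))
  have hnum' : inclB A ((σ • b - b) * s - b * (σ • s - s)) * t ∈ IsLocalRing.maximalIdeal A :=
    Ideal.mul_mem_right _ _ hnum
  have hkey := (ValuationSubring.coe_mem_nonunits_iff (A := A)).mpr hnum'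
  have e1 : σ x * σ (s : Qb) = σ (b : Qb) := by rw [← map_mul, h']
  have e2 : σ x - x = ((inclB A ((σ • b - b) * s - b * (σ • s - s)) * t : A) : Qb) := by
    have e3 : ((inclB A ((σ • b - b) * s - b * (σ • s - s)) * t : A) : Qb) =
        ((σ (b : Qb) - b) * s - b * (σ (s : Qb) - s)) * (t : Qb) := rfl
    rw [e3, ← e1, ← h']
    linear_combination (-(σ x - x)) * ht'
  rw [e2]
  exact hkey

theorem numberField_of_finiteDimensional' (K : IntermediateField ℚ Qb) [FiniteDimensional ℚ K] :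
    NumberField K :=
  { to_charZero := inferInstance
    to_finiteDimensional := by convert (inferInstance : FiniteDimensional ℚ K) }

/-- The image in a residue ring `𝓑 ⧸ Q` (of residue characteristic `ℓ`) of the algebraic
integers of a number field is finite. -/
theorem finite_residue_image (K : IntermediateField ℚ Qb) [FiniteDimensional ℚ K] (Q : Ideal 𝓑)
    {ℓ : ℕ} (hℓ : ℓ ≠ 0) (hℓQ : (ℓ : 𝓑) ∈ Q) :
    {x : 𝓑 ⧸ Q | ∃ b : 𝓑, (b : Qb) ∈ K ∧ Ideal.Quotient.mk Q b = x}.Finite := by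
  have : NumberField K := numberField_of_finiteDimensional' K
  let f : 𝓞 K →+* 𝓑 ⧸ Q := (Ideal.Quotient.mk Q).comp (inclInt K)
  have hker : RingHom.ker f ≠ ⊥ := by
    intro h
    have h1 : (ℓ : 𝓞 K) ∈ RingHom.ker f := by
      rw [RingHom.mem_ker]
      show Ideal.Quotient.mk Q (inclInt K (ℓ : 𝓞 K)) = 0
      rw [map_natCast, Ideal.Quotient.eq_zero_iff_mem]
      exact hℓQ
    rw [h, Ideal.mem_bot] at h1
    exact hℓ (by exact_mod_cast h1)
  have : Finite (𝓞 K ⧸ RingHom.ker f) := Ideal.finiteQuotientOfFreeOfNeBot _ hker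
  have hfr : Finite f.range := Finite.of_equiv _ (RingHom.quotientKerEquivRange f).toEquiv
  have hr : (Set.range f).Finite := by
    rw [← RingHom.coe_range]
    exact Set.finite_coe_iff.mp hfr
  refine hr.subset ?_
  rintro x ⟨b, hb, rfl⟩
  have hbi : IsIntegral ℤ (⟨(b : Qb), hb⟩ : K) :=
    (isIntegral_algebraMap_iff (algebraMap K Qb).injective).mp b.2
  obtain ⟨y, hy⟩ := (IsIntegralClosure.isIntegral_iff (A := 𝓞 K)).mp hbi
  refine ⟨y, ?_⟩
  show Ideal.Quotient.mk Q (inclInt K y) = Ideal.Quotient.mk Q b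
  congr 1
  apply Subtype.ext
  rw [coe_inclInt]
  exact congrArg Subtype.val hy

/-- The rational prime below lies in the prime of `𝓑` cut out by `A`. -/
theorem natCast_mem_primeB {A : ValuationSubring Qb} {ℓ : ℕ} (hA : A.LiesOverPrime ℓ) :
    (ℓ : 𝓑) ∈ primeB A := by
  rw [mem_primeB_iff]
  have : (((ℓ : 𝓑) : 𝓑) : Qb) = (ℓ : Qb) := by simp
  rw [this]
  exact hA

/-- The `F`-Frobenius at `A`: an element of `Gal(Qb/F)` acting as `x ↦ x ^ q` on the residue
field `𝓑 ⧸ primeB A`, such that every element of `Gal(Qb/F)` stabilising `primeB A` acts on any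
finite subset of the residue field as `x ↦ x ^ (q ^ n)`. -/
theorem exists_frob_fixing (F : IntermediateField ℚ Qb) [FiniteDimensional ℚ F] {ℓ : ℕ}
    (hℓ : ℓ.Prime) {A : ValuationSubring Qb} (hA : A.LiesOverPrime ℓ) :
    ∃ (q : ℕ) (φ : Γ), 0 < q ∧ φ ∈ F.fixingSubgroup ∧ (∀ b : 𝓑, φ • b - b ^ q ∈ primeB A) ∧
      ∀ d ∈ F.fixingSubgroup, (∀ b : 𝓑, d • b ∈ primeB A ↔ b ∈ primeB A) →
        ∀ T : Set (𝓑 ⧸ primeB A), T.Finite →
          ∃ n : ℕ, ∀ b : 𝓑, Ideal.Quotient.mk (primeB A) b ∈ T →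
            d • b - b ^ (q ^ n) ∈ primeB A := by
  have hcpt : CompactSpace F.fixingSubgroup :=
    isCompact_iff_compactSpace.mp (IntermediateField.fixingSubgroup_isClosed F).isCompact
  have hlies : (primeB A).LiesOver
      ((primeB A).under (FixedPoints.subalgebra ℤ 𝓑 F.fixingSubgroup)) := ⟨rfl⟩
  have hlies' := primeB_liesOver hℓ hA
  have hmaxℓ : (Ideal.span {(ℓ : ℤ)}).IsMaximal :=
    PrincipalIdealRing.isMaximal_of_irreducible (Nat.prime_iff_prime_int.mp hℓ).irreducible
  have hQmax : (primeB A).IsMaximal :=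
    Ideal.IsMaximal.of_liesOver_isMaximal (primeB A) (Ideal.span {(ℓ : ℤ)})
  have hint : Algebra.IsIntegral (FixedPoints.subalgebra ℤ 𝓑 F.fixingSubgroup) 𝓑 :=
    Algebra.IsInvariant.isIntegral_of_profinite (G := F.fixingSubgroup)
  have hPmax : ((primeB A).under (FixedPoints.subalgebra ℤ 𝓑 F.fixingSubgroup)).IsMaximal :=
    Ideal.IsMaximal.under _ _
  let _ : Field (FixedPoints.subalgebra ℤ 𝓑 F.fixingSubgroup ⧸
      (primeB A).under (FixedPoints.subalgebra ℤ 𝓑 F.fixingSubgroup)) := Ideal.Quotient.field _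
  let _ : Field (𝓑 ⧸ primeB A) := Ideal.Quotient.field _
  have hfin : Finite (FixedPoints.subalgebra ℤ 𝓑 F.fixingSubgroup ⧸
      (primeB A).under (FixedPoints.subalgebra ℤ 𝓑 F.fixingSubgroup)) := by
    have hT := finite_residue_image F (primeB A) hℓ.ne_zero (natCast_mem_primeB hA)
    refine Set.finite_univ_iff.mp (Set.Finite.of_finite_image (hT.subset ?_)
      (algebraMap (FixedPoints.subalgebra ℤ 𝓑 F.fixingSubgroup ⧸
        (primeB A).under (FixedPoints.subalgebra ℤ 𝓑 F.fixingSubgroup))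
        (𝓑 ⧸ primeB A)).injective.injOn)
    rintro _ ⟨x, -, rfl⟩
    obtain ⟨r, rfl⟩ := Ideal.Quotient.mk_surjective x
    exact ⟨(r : 𝓑), coe_mem_of_fixed F r.1 (fun h hh => r.2 ⟨h, hh⟩), rfl⟩
  let _ : Fintype (FixedPoints.subalgebra ℤ 𝓑 F.fixingSubgroup ⧸
      (primeB A).under (FixedPoints.subalgebra ℤ 𝓑 F.fixingSubgroup)) := Fintype.ofFinite _
  obtain ⟨g, hg⟩ := Ideal.Quotient.stabilizerHom_surjective_of_profinite
    (G := F.fixingSubgroup) ((primeB A).under (FixedPoints.subalgebra ℤ 𝓑 F.fixingSubgroup))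
    (primeB A) (FiniteField.frobeniusAlgEquivOfAlgebraic
      (FixedPoints.subalgebra ℤ 𝓑 F.fixingSubgroup ⧸
        (primeB A).under (FixedPoints.subalgebra ℤ 𝓑 F.fixingSubgroup)) (𝓑 ⧸ primeB A))
  refine ⟨Fintype.card (FixedPoints.subalgebra ℤ 𝓑 F.fixingSubgroup ⧸
      (primeB A).under (FixedPoints.subalgebra ℤ 𝓑 F.fixingSubgroup)), g.1.1, Fintype.card_pos,
    g.1.2, fun b => ?_, fun d hd hdQ T hT => ?_⟩
  · have h := DFunLike.congr_fun hg (Ideal.Quotient.mk _ b)
    rw [Ideal.Quotient.stabilizerHom_apply] at h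
    rw [← Ideal.Quotient.eq, map_pow]
    exact h
  · have hstab : (⟨d, hd⟩ : F.fixingSubgroup) ∈
        MulAction.stabilizer F.fixingSubgroup (primeB A) := by
      rw [MulAction.mem_stabilizer_iff]
      ext b
      change b ∈ d • primeB A ↔ b ∈ primeB A
      rw [Ideal.mem_pointwise_smul_iff_inv_smul_mem]
      have h1 := hdQ (d⁻¹ • b)
      rw [smul_inv_smul] at h1
      exact h1.symm
    obtain ⟨n, hn⟩ := exists_pow_card_pow_of_finite
      (Ideal.Quotient.stabilizerHom (primeB A)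
        ((primeB A).under (FixedPoints.subalgebra ℤ 𝓑 F.fixingSubgroup)) F.fixingSubgroup
        ⟨⟨d, hd⟩, hstab⟩) T hT
    refine ⟨n, fun b hb => ?_⟩
    have h := hn _ hb
    rw [Ideal.Quotient.stabilizerHom_apply] at h
    rw [← Ideal.Quotient.eq, map_pow]
    exact h

/-- **(DEC)**: decomposition groups at unramified places are generated by a Frobenius. -/
theorem decStatement : Fermat.Agent.S55.H93.DecStatement := by
  intro F hF ℓ hℓ A hA
  have := hF
  obtain ⟨q, φ, hq, hφF, hφ, hall⟩ := exists_frob_fixing F hℓ hA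
  have hφQ : ∀ b : 𝓑, φ • b ∈ primeB A ↔ b ∈ primeB A := by
    intro b
    have h0 : b ^ q ∈ primeB A ↔ b ∈ primeB A := (primeB_isPrime A).pow_mem_iff_mem q hq
    rw [← h0]
    constructor
    · intro h
      have h1 := (primeB A).sub_mem h (hφ b)
      simpa using h1
    · intro h
      have h1 := (primeB A).add_mem (hφ b) h
      simpa using h1
  have hφD : φ ∈ A.decompositionSubgroup ℚ := mem_decompositionSubgroup_of_primeB φ hφQ
  have hpow : ∀ (m : ℕ) (b : 𝓑), Ideal.Quotient.mk (primeB A) ((φ ^ m) • b) =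
      (Ideal.Quotient.mk (primeB A) b) ^ (q ^ m) := by
    intro m
    induction m with
    | zero => intro b; simp
    | succ m ih =>
      intro b
      rw [pow_succ, mul_smul, ih (φ • b), Ideal.Quotient.eq.mpr (hφ b), map_pow, ← pow_mul,
        pow_succ, mul_comm]
  refine ⟨φ, hφD, hφF, fun K hK _ _ hIK d hdD hdF => ?_⟩
  have := hK
  obtain ⟨n, hn⟩ := hall d hdF (fun b => smul_mem_primeB_iff hdD b) _
    (finite_residue_image K (primeB A) hℓ.ne_zero (natCast_mem_primeB hA))
  have hψ : (φ ^ n)⁻¹ ∈ A.decompositionSubgroup ℚ := inv_mem (pow_mem hφD n)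
  have hσ : ∀ b : 𝓑, (b : Qb) ∈ K → ((φ ^ n)⁻¹ * d) • b - b ∈ primeB A := by
    intro b hb
    have h1 := hn b ⟨b, hb, rfl⟩
    have h2 : d • b - (φ ^ n) • b ∈ primeB A := by
      rw [← Ideal.Quotient.eq, hpow n b, ← map_pow]
      exact Ideal.Quotient.eq.mpr h1
    have h3 := (smul_mem_primeB_iff hψ (d • b - (φ ^ n) • b)).mpr h2
    rw [smul_sub, inv_smul_smul, ← mul_smul] at h3
    exact h3
  obtain ⟨τ, hτK, hτQ⟩ := exists_lift_inertia K (primeB A) ((φ ^ n)⁻¹ * d) hσ
  have hτI : τ ∈ K.fixingSubgroup := hIK (mem_inertiaSubgroupIn_of_primeB τ hτQ)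
  refine ⟨n, ?_⟩
  rw [IntermediateField.mem_fixingSubgroup_iff]
  intro x hx
  rw [← hτK x hx]
  exact (IntermediateField.mem_fixingSubgroup_iff K τ).mp hτI x hx

end Fermat.Agent.S55.H85
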