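/-
Program C (S55), package C8, leaf (R-LOCNORM) of helper6's spec `H6/RecCycloSpec.lean`
(helper85): `H6.LocNormStatement`, verbatim.

If the local invariant at an embedding `τ'` of the cyclic class `cycClass σ a` (`σ` a generator
of `Gal(E/k)`, `a ∈ kˣ`) vanishes, then `a` is a norm from `E_w` to `k_v`.  This is helper18's
landed `H18.exists_norm_of_linvAt_eq_zero` (general cyclic layer: CY6 with a generator of the
decomposition group, injectivity of `H66.inv`, CY3), restated in the shape of the spec.
-/
import Fermat.Agent.S55.H6.RecCycloSpec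
import Fermat.Agent.S55.H18.CycLocal

set_option autoImplicit false

open CategoryTheory groupCohomology Rep

noncomputable section

namespace Fermat.Agent.S55.H85

open Fermat.Agent.S55.H88 Fermat.Agent.S55.H66

/-- **Leaf (R-LOCNORM)**, verbatim. -/
theorem locNormStatement : H6.LocNormStatement := by
  intro k E _ _ _ _ _ _ σ hσ q _ τ' a h
  have : FiniteDimensional k E := FiniteDimensional.right ℚ k E
  obtain ⟨y, hy⟩ := H18.exists_norm_of_linvAt_eq_zero k τ' σ hσ a h
  exact ⟨(y : locExt q k τ'), hy⟩

end Fermat.Agent.S55.H85
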