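/-
Program C (S55), package C8, leaf (LOCSYM) (helper85): `H29.KummerLocalSymbolStatement`.

For a Kummer layer `K = k(β)`, `β ^ p = g`, with generator `σ`, and a finite place `v` of `k`,
the local symbol `lam : k_vˣ → ℚ/ℤ`, `lam y = inv (cycClass τ y)`, where `τ` generates
`G' = Gal(K_w / k_v) ↪ G = Gal(K / k)`:
* non-split case (`g` not a `p`-th power in `k_v`): `G' ≃ G`, `τ ↦ σ`;
* split case: `G' = 1`, `τ = 1`.
(a) is CY6, (b) is CY2 + the image of `inv`, (c) is CY3.
-/
import Fermat.Agent.S55.H29.C8Ex
import Fermat.Agent.S55.H16.CycLoc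

set_option autoImplicit false
set_option linter.unusedSectionVars false

open CategoryTheory groupCohomology Rep Polynomial

noncomputable section

namespace Fermat.Agent.S55.H85

open Fermat.Agent.S55.H88 Fermat.Agent.S55.H66

section Local

variable (q : ℕ) [Fact q.Prime]
variable (k K : Type) [Field k] [NumberField k] [Field K] [NumberField K] [Algebra k K]
  [IsGalois k K] (τ' : K →+* PadicAlgCl q)

/-- `baseUnit` is invariant under the local Galois group. -/
theorem baseUnit_invariant (y : (locBase q k τ')ˣ)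
    (s : locExt q k τ' ≃ₐ[locBase q k τ'] locExt q k τ') :
    (Rep.ofAlgebraAutOnUnits (locBase q k τ') (locExt q k τ')).ρ s
        (baseUnit (locExt q k τ') y) = baseUnit (locExt q k τ') y := by
  apply Additive.toMul.injective
  apply Units.ext
  exact s.commutes (y : locBase q k τ')

/-- `baseUnit` is additive. -/
theorem baseUnit_mul (x y : (locBase q k τ')ˣ) :
    baseUnit (locExt q k τ') (x * y) =
      baseUnit (locExt q k τ') x + baseUnit (locExt q k τ') y := by
  apply Additive.toMul.injective
  apply Units.ext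
  exact map_mul (algebraMap (locBase q k τ') (locExt q k τ')) _ _

/-- The localisation of an element of `kˣ` is the `baseUnit` of its image in `k_v`. -/
theorem globalToLocUnits_unitOfBase_eq (a : kˣ) :
    (globalToLocUnits q k τ').hom (H29.unitOfBase k K a) =
      baseUnit (locExt q k τ')
        (Units.map (locEmb q (τ'.comp (algebraMap k K))).toMonoidHom a) := by
  apply Additive.toMul.injective
  apply Units.ext
  rfl

/-- An invariant element of the Galois module `K_wˣ` comes from `k_vˣ`. -/
theorem exists_baseUnit_eq [FiniteDimensional (locBase q k τ') (locExt q k τ')]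
    [IsGalois (locBase q k τ') (locExt q k τ')]
    (a : Rep.ofAlgebraAutOnUnits (locBase q k τ') (locExt q k τ'))
    (ha : ∀ s : locExt q k τ' ≃ₐ[locBase q k τ'] locExt q k τ',
      (Rep.ofAlgebraAutOnUnits (locBase q k τ') (locExt q k τ')).ρ s a = a) :
    ∃ y : (locBase q k τ')ˣ, baseUnit (locExt q k τ') y = a := by
  have hfix : ∀ s : locExt q k τ' ≃ₐ[locBase q k τ'] locExt q k τ',
      s (Additive.toMul (H16.toL q k K τ' a)) = Additive.toMul (H16.toL q k K τ' a) := by
    intro s
    have h1 := congrArg (fun m => Additive.toMul (H16.toL q k K τ' m)) (ha s)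
    exact h1
  obtain ⟨c, hc⟩ := (IsGalois.mem_range_algebraMap_iff_fixed
    (Additive.toMul (H16.toL q k K τ' a))).2 hfix
  have hc0 : c ≠ 0 := by
    rintro rfl
    rw [map_zero] at hc
    exact (Additive.toMul (show Additive (locExt q k τ')ˣ from a)).ne_zero hc.symm
  refine ⟨Units.mk0 c hc0, ?_⟩
  apply Additive.toMul.injective
  apply Units.ext
  exact hc

/-- `toL` is injective. -/
theorem toL_injective : Function.Injective (H16.toL q k K τ') := by
  intro x y h
  apply Additive.toMul.injective
  apply Units.ext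
  exact congrArg Additive.toMul h

/-- The norm of a unit, in the Galois module `K_wˣ`. -/
theorem sum_ρ_eq_baseUnit_of_norm
    [FiniteDimensional (locBase q k τ') (locExt q k τ')]
    [IsGalois (locBase q k τ') (locExt q k τ')]
    (b : Rep.ofAlgebraAutOnUnits (locBase q k τ') (locExt q k τ')) (y : (locBase q k τ')ˣ)
    (h : Algebra.norm (locBase q k τ') (Additive.toMul (H16.toL q k K τ' b)) = y) :
    ∑ s : locExt q k τ' ≃ₐ[locBase q k τ'] locExt q k τ',
      (Rep.ofAlgebraAutOnUnits (locBase q k τ') (locExt q k τ')).ρ s b =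
        baseUnit (locExt q k τ') y := by
  apply toL_injective q k K τ'
  rw [map_sum]
  apply Additive.toMul.injective
  rw [toMul_sum]
  have hnorm := Algebra.norm_eq_prod_automorphisms (locBase q k τ')
    (Additive.toMul (H16.toL q k K τ' b))
  rw [h] at hnorm
  exact hnorm.symm

/-- **The local symbol from a generator of the local Galois group.** -/
theorem locSym_core [FiniteDimensional k K] [FiniteDimensional ℚ_[q] (locBase q k τ')]
    [FiniteDimensional (locBase q k τ') (locExt q k τ')]
    [IsGalois (locBase q k τ') (locExt q k τ')]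
    (σ : K ≃ₐ[k] K) (hσ : ∀ s : K ≃ₐ[k] K, s ∈ Subgroup.zpowers σ)
    (τ : locExt q k τ' ≃ₐ[locBase q k τ'] locExt q k τ') (d : ℕ)
    (hτgen : ∀ s : locExt q k τ' ≃ₐ[locBase q k τ'] locExt q k τ', s ∈ Subgroup.zpowers τ)
    (hφτ : locGalToGlobal q k τ' τ = σ ^ d) (hord : d * orderOf τ = orderOf σ)
    (N : Subgroup (locBase q k τ')ˣ)
    (hN : ∀ y ∈ N, ∃ b : Rep.ofAlgebraAutOnUnits (locBase q k τ') (locExt q k τ'),
      ∑ s : locExt q k τ' ≃ₐ[locBase q k τ'] locExt q k τ',
        (Rep.ofAlgebraAutOnUnits (locBase q k τ') (locExt q k τ')).ρ s b =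
          baseUnit (locExt q k τ') y) :
    ∃ lam : (locBase q k τ')ˣ →* Multiplicative QZ,
      (∀ a : kˣ, lam (Units.map (locEmb q (τ'.comp (algebraMap k K))).toMonoidHom a) =
        Multiplicative.ofAdd (linvAt q k τ'
          (cycClass (Rep.ofAlgebraAutOnUnits k K) σ (H29.unitOfBase k K a)))) ∧
      (∀ z : QZ, Module.finrank (locBase q k τ') (locExt q k τ') • z = 0 →
        ∃ y, lam y = Multiplicative.ofAdd z) ∧
      N ≤ lam.ker := by
  classical
  have hinj := H16.locGalToGlobal_injective q k K τ'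
  have hadd : ∀ x y : (locBase q k τ')ˣ,
      cycClass (Rep.ofAlgebraAutOnUnits (locBase q k τ') (locExt q k τ')) τ
          (baseUnit (locExt q k τ') (x * y)) =
        cycClass (Rep.ofAlgebraAutOnUnits (locBase q k τ') (locExt q k τ')) τ
            (baseUnit (locExt q k τ') x) +
          cycClass (Rep.ofAlgebraAutOnUnits (locBase q k τ') (locExt q k τ')) τ
            (baseUnit (locExt q k τ') y) := by
    intro x y
    rw [baseUnit_mul]
    exact H37.leafCycAdd ℤ _ (Rep.ofAlgebraAutOnUnits (locBase q k τ') (locExt q k τ')) τ hτgen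
      _ _ (baseUnit_invariant q k K τ' x) (baseUnit_invariant q k K τ' y)
  let lam : (locBase q k τ')ˣ →* Multiplicative QZ :=
    MonoidHom.mk' (fun y => Multiplicative.ofAdd (H66.inv q (locExt q k τ')
      (cycClass (Rep.ofAlgebraAutOnUnits (locBase q k τ') (locExt q k τ')) τ
        (baseUnit (locExt q k τ') y)))) (fun x y => by
      show Multiplicative.ofAdd _ = Multiplicative.ofAdd _ * Multiplicative.ofAdd _
      rw [hadd, map_add]
      rfl)
  have hlam : ∀ y, lam y = Multiplicative.ofAdd (H66.inv q (locExt q k τ')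
      (cycClass (Rep.ofAlgebraAutOnUnits (locBase q k τ') (locExt q k τ')) τ
        (baseUnit (locExt q k τ') y))) := fun y => rfl
  refine ⟨lam, fun a => ?_, fun z hz => ?_, fun y hy => ?_⟩
  · rw [hlam]
    congr 1
    have hres := H80.leafCycRes ℤ (K ≃ₐ[k] K)
      (locExt q k τ' ≃ₐ[locBase q k τ'] locExt q k τ')
      (Rep.ofAlgebraAutOnUnits k K) (Rep.ofAlgebraAutOnUnits (locBase q k τ') (locExt q k τ'))
      (locGalToGlobal q k τ') (globalToLocUnits q k τ') σ τ d hσ hτgen hinj hφτ hord
      (H29.unitOfBase k K a) (H16.unitOfBase_invariant k K a)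
    show _ = H66.inv q (locExt q k τ')
      ((map (locGalToGlobal q k τ') (globalToLocUnits q k τ') 2).hom
        (cycClass (Rep.ofAlgebraAutOnUnits k K) σ (H29.unitOfBase k K a)))
    rw [hres, globalToLocUnits_unitOfBase_eq]
  · obtain ⟨x, hx⟩ := ((H66.c3_inv q (locBase q k τ') (locExt q k τ')).2.2 z).2 hz
    obtain ⟨a, ha, hax⟩ := H37.leafCycSurj ℤ _
      (Rep.ofAlgebraAutOnUnits (locBase q k τ') (locExt q k τ')) τ hτgen x
    obtain ⟨y, hy⟩ := exists_baseUnit_eq q k K τ' a ha
    refine ⟨y, ?_⟩
    rw [hlam, hy, hax, hx]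
  · rw [MonoidHom.mem_ker, hlam]
    obtain ⟨b, hb⟩ := hN y hy
    have hz : cycClass (Rep.ofAlgebraAutOnUnits (locBase q k τ') (locExt q k τ')) τ
        (baseUnit (locExt q k τ') y) = 0 :=
      (H37.leafCycZero ℤ _ (Rep.ofAlgebraAutOnUnits (locBase q k τ') (locExt q k τ')) τ hτgen _
        (baseUnit_invariant q k K τ' y)).2 ⟨b, hb⟩
    rw [hz, map_zero]
    rfl

/-- **(LOCSYM) at an embedding `τ'` of `K`.** -/
theorem locSym_at (p : ℕ) (hp : p.Prime) (hdeg : Module.finrank k K = p) (ζ : k)
    (hζ : IsPrimitiveRoot ζ p) (g : kˣ) (hg : g ∉ H8.pPow p kˣ) (β : K)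
    (hβ : β ^ p = algebraMap k K g)
    (σ : K ≃ₐ[k] K) (hσ : ∀ s : K ≃ₐ[k] K, s ∈ Subgroup.zpowers σ) :
    ∃ lam : (locField q (τ'.comp (algebraMap k K)))ˣ →* Multiplicative QZ,
      (∀ a : kˣ, lam (Units.map (locEmb q (τ'.comp (algebraMap k K))).toMonoidHom a) =
        Multiplicative.ofAdd (linvAt q k τ'
          (cycClass (Rep.ofAlgebraAutOnUnits k K) σ (H29.unitOfBase k K a)))) ∧
      (∀ z : QZ, Module.finrank (locBase q k τ') (locExt q k τ') • z = 0 →
        ∃ y, lam y = Multiplicative.ofAdd z) ∧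
      H8.kummerNormGroup p
        (((Units.map (locEmb q (τ'.comp (algebraMap k K))).toMonoidHom g :
          (locField q (τ'.comp (algebraMap k K)))ˣ)) :
            locField q (τ'.comp (algebraMap k K))) ≤ lam.ker := by
  classical
  have : FiniteDimensional k K := Module.finite_of_finrank_pos (by rw [hdeg]; exact hp.pos)
  have := H16.finiteDimensional_locBase q k K τ'
  have := H16.finiteDimensional_locExt' q k K τ'
  have := H16.isGalois_locExt' q k K τ'
  have hinj := H16.locGalToGlobal_injective q k K τ'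
  have hcardG : Nat.card (K ≃ₐ[k] K) = p := by rw [IsGalois.card_aut_eq_finrank, hdeg]
  have hordσ : orderOf σ = p := by rw [orderOf_eq_card_of_forall_mem_zpowers hσ, hcardG]
  set gF : locBase q k τ' := locEmb q (τ'.comp (algebraMap k K)) (g : k) with hgF
  show ∃ lam : (locBase q k τ')ˣ →* Multiplicative QZ, _ ∧ _ ∧ H8.kummerNormGroup p gF ≤ lam.ker
  set βL : locExt q k τ' := locExtEmb q k τ' β with hβL
  have hβLp : βL ^ p = algebraMap (locBase q k τ') (locExt q k τ') gF := by
    rw [hβL, ← map_pow, hβ]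
    rfl
  by_cases hpow : ∃ c : locBase q k τ', c ^ p = gF
  · -- split case: the local Galois group is trivial
    obtain ⟨c, hc⟩ := hpow
    have hc0 : c ≠ 0 := by
      rintro rfl
      rw [zero_pow hp.ne_zero] at hc
      exact (Units.map (locEmb q (τ'.comp (algebraMap k K))).toMonoidHom g).ne_zero hc.symm
    have hζL : IsPrimitiveRoot (algebraMap (locBase q k τ') (locExt q k τ')
        (locEmb q (τ'.comp (algebraMap k K)) ζ)) p :=
      (hζ.map_of_injective (locEmb q (τ'.comp (algebraMap k K))).injective).map_of_injective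
        (algebraMap (locBase q k τ') (locExt q k τ')).injective
    have hcL : algebraMap (locBase q k τ') (locExt q k τ') c ≠ 0 :=
      (map_ne_zero (algebraMap (locBase q k τ') (locExt q k τ'))).mpr hc0
    have hβF : ∃ e : locBase q k τ', βL = algebraMap (locBase q k τ') (locExt q k τ') e := by
      have h1 : (βL / algebraMap (locBase q k τ') (locExt q k τ') c) ^ p = 1 := by
        rw [div_pow, hβLp, ← hc, map_pow, div_self (pow_ne_zero _ hcL)]
      have : NeZero p := ⟨hp.ne_zero⟩
      obtain ⟨i, -, hi⟩ := hζL.eq_pow_of_pow_eq_one h1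
      refine ⟨locEmb q (τ'.comp (algebraMap k K)) ζ ^ i * c, ?_⟩
      rw [map_mul, map_pow, hi, div_mul_cancel₀ _ hcL]
    obtain ⟨e, he⟩ := hβF
    have htriv : ∀ α : locExt q k τ' ≃ₐ[locBase q k τ'] locExt q k τ', α = 1 := by
      intro α
      apply hinj
      rw [map_one]
      have h1 : α βL = βL := by rw [he, α.commutes]
      have h2 : locExtEmb q k τ' (locGalToGlobal q k τ' α β) = locExtEmb q k τ' β := by
        rw [← locGalToGlobal_spec]
        exact h1
      have h3 : locGalToGlobal q k τ' α β = β := (locExtEmb q k τ').injective h2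
      by_contra hne
      have : Fact p.Prime := ⟨hp⟩
      have htop : Subgroup.zpowers (locGalToGlobal q k τ' α) = ⊤ :=
        zpowers_eq_top_of_prime_card hcardG hne
      have hall : ∀ s : K ≃ₐ[k] K, s β = β := by
        intro s
        have hs : s ∈ Subgroup.zpowers (locGalToGlobal q k τ' α) := by
          rw [htop]
          exact Subgroup.mem_top s
        have hle : Subgroup.zpowers (locGalToGlobal q k τ' α) ≤
            MulAction.stabilizer (K ≃ₐ[k] K) β := by
          rw [Subgroup.zpowers_le]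
          exact h3
        exact hle hs
      obtain ⟨b, hb⟩ := (IsGalois.mem_range_algebraMap_iff_fixed β).2 hall
      apply hg
      have hbp : b ^ p = (g : k) := by
        apply (algebraMap k K).injective
        rw [map_pow, hb, hβ]
      have hb0 : b ≠ 0 := by
        rintro rfl
        rw [zero_pow hp.ne_zero] at hbp
        exact g.ne_zero hbp.symm
      exact ⟨Units.mk0 b hb0, Units.ext hbp⟩
    refine locSym_core q k K τ' σ hσ 1 p (fun s => by rw [htriv s]; exact Subgroup.one_mem _)
      (by rw [map_one, ← hordσ, pow_orderOf_eq_one]) (by rw [orderOf_one, mul_one, hordσ]) _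
      (fun y _ => ⟨baseUnit (locExt q k τ') y, ?_⟩)
    have huniv : (Finset.univ : Finset (locExt q k τ' ≃ₐ[locBase q k τ'] locExt q k τ')) = {1} := by
      ext s
      simp [htriv s]
    rw [huniv, Finset.sum_singleton, map_one]
    rfl
  · -- non-split case: the local Galois group is the global one
    replace hpow : ∀ c : locBase q k τ', c ^ p ≠ gF := fun c hc => hpow ⟨c, hc⟩
    have hirr : Irreducible (X ^ p - C gF : (locBase q k τ')[X]) :=
      X_pow_sub_C_irreducible_of_prime hp hpow
    have hroot : Polynomial.aeval βL (X ^ p - C gF : (locBase q k τ')[X]) = 0 := by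
      rw [map_sub, map_pow, aeval_X, aeval_C, hβLp, sub_self]
    have hmin : minpoly (locBase q k τ') βL = X ^ p - C gF :=
      (minpoly.eq_of_irreducible_of_monic hirr hroot (monic_X_pow_sub_C gF hp.ne_zero)).symm
    have hle : p ≤ Module.finrank (locBase q k τ') (locExt q k τ') := by
      have h1 := minpoly.natDegree_le (A := locBase q k τ') βL
      rwa [hmin, natDegree_X_pow_sub_C] at h1
    have hcardG' : Nat.card (locExt q k τ' ≃ₐ[locBase q k τ'] locExt q k τ') =
        Module.finrank (locBase q k τ') (locExt q k τ') := IsGalois.card_aut_eq_finrank _ _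
    have hle2 : Nat.card (locExt q k τ' ≃ₐ[locBase q k τ'] locExt q k τ') ≤
        Nat.card (K ≃ₐ[k] K) := Nat.card_le_card_of_injective _ hinj
    have hdegL : Module.finrank (locBase q k τ') (locExt q k τ') = p := by omega
    have hbij : Function.Bijective (locGalToGlobal q k τ') :=
      hinj.bijective_of_nat_card_le (by omega)
    obtain ⟨τ, hτ⟩ := hbij.2 σ
    have hτgen : ∀ s : locExt q k τ' ≃ₐ[locBase q k τ'] locExt q k τ',
        s ∈ Subgroup.zpowers τ := by
      intro s
      obtain ⟨n, hn⟩ := Subgroup.mem_zpowers_iff.1 (hσ (locGalToGlobal q k τ' s))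
      refine Subgroup.mem_zpowers_iff.2 ⟨n, hinj ?_⟩
      rw [map_zpow, hτ, hn]
    have hord : 1 * orderOf τ = orderOf σ := by
      rw [one_mul, ← hτ, orderOf_injective (locGalToGlobal q k τ') hinj τ]
    refine locSym_core q k K τ' σ hσ τ 1 hτgen (by rw [pow_one]; exact hτ) hord _
      (fun y hy => ?_)
    rw [H83.kummerNormGroup_eq_range_norm_of_not_pow hp hpow βL hβLp hdegL] at hy
    obtain ⟨u, hu⟩ := hy
    exact ⟨Rep.toAdditive.symm (Additive.ofMul u),
      sum_ρ_eq_baseUnit_of_norm q k K τ' _ y (congrArg Units.val hu)⟩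

/-- (LOCSYM) at an embedding `τ'` of `K` above a given embedding `τ₀` of `k`. -/
theorem locSym_above (τ₀ : k →+* PadicAlgCl q) (hτ : τ'.comp (algebraMap k K) = τ₀)
    (p : ℕ) (hp : p.Prime) (hdeg : Module.finrank k K = p) (ζ : k)
    (hζ : IsPrimitiveRoot ζ p) (g : kˣ) (hg : g ∉ H8.pPow p kˣ) (β : K)
    (hβ : β ^ p = algebraMap k K g)
    (σ : K ≃ₐ[k] K) (hσ : ∀ s : K ≃ₐ[k] K, s ∈ Subgroup.zpowers σ) :
    ∃ lam : (locField q τ₀)ˣ →* Multiplicative QZ,
      (∀ a : kˣ, lam (Units.map (locEmb q τ₀).toMonoidHom a) =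
        Multiplicative.ofAdd (linvAt q k τ'
          (cycClass (Rep.ofAlgebraAutOnUnits k K) σ (H29.unitOfBase k K a)))) ∧
      (∀ z : QZ, Module.finrank (locBase q k τ') (locExt q k τ') • z = 0 →
        ∃ y, lam y = Multiplicative.ofAdd z) ∧
      H8.kummerNormGroup p
        (((Units.map (locEmb q τ₀).toMonoidHom g : (locField q τ₀)ˣ)) : locField q τ₀)
          ≤ lam.ker := by
  subst hτ
  exact locSym_at q k K τ' p hp hdeg ζ hζ g hg β hβ σ hσ

end Local

attribute [local instance] factOfPrimes

/-- **Leaf (LOCSYM)**, verbatim. -/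
theorem kummerLocalSymbolStatement : H29.KummerLocalSymbolStatement := by
  intro k K _ _ _ _ _ _ p hp _ hdeg ζ hζ g hg β hβ σ hσ v
  exact locSym_above (v.1 : ℕ) k K (v.ext K) v.emb (v.ext_comp K) p hp hdeg ζ hζ g hg β hβ σ hσ

end Fermat.Agent.S55.H85
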