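/-
S55 (Program C), C9b, leaf (HL-a) DICT-RES (helper85, task 547): the residue field of the
completion `k_v = ℚ_q(τ k) = H88.locField q τ` of a number field `k` at the place of an embedding
`τ : k →+* PadicAlgCl q` has the cardinality of `𝓞 k ⧸ 𝔭`, `𝔭 = H83.primeOfEmb q τ`:

  `resCard_locField_eq : H66.resCard q (H88.locField q τ) = Nat.card (𝓞 k ⧸ H83.primeOfEmb q τ)`.

Proof: `τ k` is dense in `locField q τ` (its closure is a subfield containing `ℚ_q`); an element
of `k` of `τ`-norm at most one is congruent to an algebraic integer modulo the maximal ideal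
(valuation ring of `𝔭` = localisation); so `𝓞 k → residue field of locField` is onto, with
kernel `𝔭`.
-/
import Mathlib
import Fermat.Agent.S55.H83.DictBasic
import Fermat.Agent.S55.H28.Unram

set_option autoImplicit false

open NumberField IsDedekindDomain

namespace Fermat.Agent.S55.H85

noncomputable section

variable (q : ℕ) [Fact q.Prime]

/-- The closure of the image of a field embedding into `PadicAlgCl q`, as an intermediate field
of `PadicAlgCl q / ℚ_q`. -/
def closureField {k : Type*} [Field k] (τ : k →+* PadicAlgCl q) :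
    IntermediateField ℚ_[q] (PadicAlgCl q) :=
  (τ.fieldRange.topologicalClosure).toIntermediateField (fun c => by
    show algebraMap ℚ_[q] (PadicAlgCl q) c ∈ closure (τ.fieldRange : Set (PadicAlgCl q))
    rw [Metric.mem_closure_iff]
    intro ε hε
    obtain ⟨r, hr⟩ := Padic.rat_dense q c hε
    refine ⟨τ (r : k), ⟨(r : k), rfl⟩, ?_⟩
    have h1 : τ (r : k) = algebraMap ℚ_[q] (PadicAlgCl q) (r : ℚ_[q]) := by
      rw [map_ratCast, map_ratCast]
    rw [dist_eq_norm, h1, ← map_sub, PadicAlgCl.norm_extends]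
    exact hr)

theorem mem_closureField {k : Type*} [Field k] (τ : k →+* PadicAlgCl q) (y : PadicAlgCl q) :
    y ∈ closureField q τ ↔ y ∈ closure (Set.range τ) := by
  have h : (τ.fieldRange : Set (PadicAlgCl q)) = Set.range τ := RingHom.coe_fieldRange τ
  rw [← h]
  rfl

theorem locField_le_closureField {k : Type*} [Field k] (τ : k →+* PadicAlgCl q) :
    H88.locField q τ ≤ closureField q τ := by
  refine IntermediateField.adjoin_le_iff.mpr ?_
  rintro _ ⟨x, rfl⟩
  exact (mem_closureField q τ _).2 (subset_closure ⟨x, rfl⟩)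

/-- **Density**: `τ k` is dense in the completion `locField q τ`. -/
theorem exists_emb_sub_lt {k : Type*} [Field k] (τ : k →+* PadicAlgCl q) {y : PadicAlgCl q}
    (hy : y ∈ H88.locField q τ) {ε : ℝ} (hε : 0 < ε) : ∃ z : k, ‖τ z - y‖ < ε := by
  have h1 := (mem_closureField q τ y).1 (locField_le_closureField q τ hy)
  rw [Metric.mem_closure_iff] at h1
  obtain ⟨_, ⟨z, rfl⟩, hz⟩ := h1 ε hε
  refine ⟨z, ?_⟩
  rw [← norm_neg, neg_sub, ← dist_eq_norm]
  exact hz

variable {k : Type*} [Field k] [NumberField k]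

/-- An element of `k` of `τ`-norm at most one is congruent to an algebraic integer modulo the
maximal ideal. -/
theorem exists_int_sub_lt (τ : k →+* PadicAlgCl q) {z : k} (hz : ‖τ z‖ ≤ 1) :
    ∃ x : 𝓞 k, ‖τ (algebraMap (𝓞 k) k x) - τ z‖ < 1 := by
  set P := H83.heightOneOfEmb q τ with hP
  have hv : P.valuation k z ≤ 1 := (H83.norm_emb_le_one_iff q τ z).1 hz
  obtain ⟨n, d, hnd⟩ := P.exists_primeCompl_mul_eq_of_integer z hv
  have hdP : (d : 𝓞 k) ∉ H83.primeOfEmb q τ := d.2
  have hmax : (H83.primeOfEmb q τ).IsMaximal :=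
    (H83.primeOfEmb_isPrime q τ).isMaximal (H83.primeOfEmb_ne_bot q τ)
  obtain ⟨t, i, hi, hti⟩ := Ideal.IsMaximal.exists_inv hmax hdP
  have hi' : ‖τ (algebraMap (𝓞 k) k i)‖ < 1 := hi
  refine ⟨n * t, ?_⟩
  have h1 : τ (algebraMap (𝓞 k) k (n * t)) - τ z = - (τ z * τ (algebraMap (𝓞 k) k i)) := by
    have h2 : algebraMap (𝓞 k) k (t * (d : 𝓞 k) + i) = 1 := by rw [hti, map_one]
    rw [map_add, map_mul] at h2
    have h3 : algebraMap (𝓞 k) k (n * t) - z = - (z * algebraMap (𝓞 k) k i) := by
      rw [map_mul, ← hnd]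
      linear_combination (z) * h2
    rw [← map_sub, h3, map_neg, map_mul]
  rw [h1, norm_neg, norm_mul]
  exact mul_lt_one_of_nonneg_of_lt_one_right hz (norm_nonneg _) hi'

/-- The ring homomorphism `𝓞 k → 𝒪_{k_v}`. -/
def toIntRing (τ : k →+* PadicAlgCl q) : 𝓞 k →+* H66.intRing q (H88.locField q τ) :=
  RingHom.codRestrict ((H88.locEmb q τ).comp (algebraMap (𝓞 k) k))
    (H66.intRing q (H88.locField q τ))
    (fun x => (H28.mem_intRing q (H88.locField q τ)).2 (H83.norm_emb_le_one q τ x))

omit [NumberField k] in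
theorem coe_toIntRing (τ : k →+* PadicAlgCl q) (x : 𝓞 k) :
    algebraMap (H88.locField q τ) (PadicAlgCl q)
      ((toIntRing q τ x : H66.intRing q (H88.locField q τ)) : H88.locField q τ)
      = τ (algebraMap (𝓞 k) k x) := rfl

/-- The residue class of an integer of an embedded local field vanishes iff its norm is `< 1`. -/
theorem residue_eq_zero_iff (F : Type) [Field F] [Algebra F (PadicAlgCl q)]
    (y : H66.intRing q F) :
    IsLocalRing.residue (H66.intRing q F) y = 0 ↔ ‖algebraMap F (PadicAlgCl q) (y : F)‖ < 1 := by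
  constructor
  · intro h
    have h1 := congrArg (H28.resEmb q F) h
    rw [H28.resEmb_residue, map_zero, H28.redF_apply, H28.red_eq_zero_iff, H28.coe_incl] at h1
    exact h1
  · intro h
    apply (H28.resEmb q F).injective
    rw [H28.resEmb_residue, map_zero, H28.redF_apply, H28.red_eq_zero_iff, H28.coe_incl]
    exact h

/-- The reduction map `𝓞 k → residue field of k_v`. -/
def resMap (τ : k →+* PadicAlgCl q) :
    𝓞 k →+* IsLocalRing.ResidueField (H66.intRing q (H88.locField q τ)) :=
  (IsLocalRing.residue (H66.intRing q (H88.locField q τ))).comp (toIntRing q τ)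

theorem ker_resMap (τ : k →+* PadicAlgCl q) : RingHom.ker (resMap q τ) = H83.primeOfEmb q τ := by
  ext x
  rw [RingHom.mem_ker, H83.mem_primeOfEmb]
  show IsLocalRing.residue (H66.intRing q (H88.locField q τ)) (toIntRing q τ x) = 0 ↔ _
  rw [residue_eq_zero_iff, coe_toIntRing]

theorem resMap_surjective (τ : k →+* PadicAlgCl q) : Function.Surjective (resMap q τ) := by
  intro r
  obtain ⟨y, rfl⟩ := IsLocalRing.residue_surjective r
  have hy1 : ‖algebraMap (H88.locField q τ) (PadicAlgCl q) (y : H88.locField q τ)‖ ≤ 1 :=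
    (H28.mem_intRing q (H88.locField q τ)).1 y.2
  obtain ⟨z, hz⟩ := exists_emb_sub_lt q τ (y : H88.locField q τ).2 one_pos
  have hz' : ‖τ z - algebraMap (H88.locField q τ) (PadicAlgCl q) (y : H88.locField q τ)‖ < 1 := hz
  have hz1 : ‖τ z‖ ≤ 1 := by
    have h1 : τ z = (τ z - algebraMap (H88.locField q τ) (PadicAlgCl q) (y : H88.locField q τ))
        + algebraMap (H88.locField q τ) (PadicAlgCl q) (y : H88.locField q τ) := by ring
    rw [h1]
    exact le_trans (IsUltrametricDist.norm_add_le_max _ _) (max_le hz'.le hy1)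
  obtain ⟨x, hx⟩ := exists_int_sub_lt q τ hz1
  refine ⟨x, ?_⟩
  show IsLocalRing.residue (H66.intRing q (H88.locField q τ)) (toIntRing q τ x)
    = IsLocalRing.residue (H66.intRing q (H88.locField q τ)) y
  rw [← sub_eq_zero, ← map_sub, residue_eq_zero_iff]
  have h2 : algebraMap (H88.locField q τ) (PadicAlgCl q)
      (((toIntRing q τ x - y : H66.intRing q (H88.locField q τ))) : H88.locField q τ)
      = (τ (algebraMap (𝓞 k) k x) - τ z)
        + (τ z - algebraMap (H88.locField q τ) (PadicAlgCl q) (y : H88.locField q τ)) := by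
    have h3 : algebraMap (H88.locField q τ) (PadicAlgCl q)
        (((toIntRing q τ x - y : H66.intRing q (H88.locField q τ))) : H88.locField q τ)
        = algebraMap (H88.locField q τ) (PadicAlgCl q)
            ((toIntRing q τ x : H66.intRing q (H88.locField q τ)) : H88.locField q τ)
          - algebraMap (H88.locField q τ) (PadicAlgCl q) (y : H88.locField q τ) := by
      rw [← map_sub]
      rfl
    rw [h3, coe_toIntRing]
    ring
  rw [h2]
  exact lt_of_le_of_lt (IsUltrametricDist.norm_add_le_max _ _) (max_lt hx hz')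

end

/-- **(HL-a) DICT-RES.**  The residue field of the completion `k_v = locField q τ` of a number
field `k` has the cardinality of `𝓞 k ⧸ 𝔭`, `𝔭 = primeOfEmb q τ` the prime of the place. -/
theorem resCard_locField_eq (k : Type) [Field k] [NumberField k] (q : ℕ) [Fact q.Prime]
    (τ : k →+* PadicAlgCl q) :
    H66.resCard q (H88.locField q τ) = Nat.card (𝓞 k ⧸ H83.primeOfEmb q τ) := by
  have e := RingHom.quotientKerEquivOfSurjective (resMap_surjective q τ)
  have h1 : Nat.card (𝓞 k ⧸ RingHom.ker (resMap q τ))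
      = Nat.card (IsLocalRing.ResidueField (H66.intRing q (H88.locField q τ))) :=
    Nat.card_congr e.toEquiv
  rw [ker_resMap] at h1
  exact h1.symm

end Fermat.Agent.S55.H85
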