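/-
S55 (Poitou–Tate), package C8, leaf (J-SURJ) (helper85, task 568): `H29.JSurjStatement`.

Every `t ∈ ℚ/ℤ` killed by the local degree at a finite place `v` of `k` is the local invariant at
`v` of a class of `H²(Gal(K/k), J_K)` whose other local invariants vanish.

* `ideleProjAt k K v`, `ideleProjRep k K v` : the `Gal(K/k)`-equivariant (multiplicative)
  projector of the ideles of `K` onto the factor `∏_{w ∣ v} K_wˣ`: the same values at the
  embeddings of `K` whose restriction to `k` lies in `v`, the value `1` elsewhere;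
* `ideleToLoc_proj`, `ideleToLoc_proj_eq_zero` : localisation at a place above `v` is unchanged
  by the projector, localisation at a place not above `v` kills it;
* `exists_semiLocal_orbit`, `exists_idele_glue` : gluing along the orbit of one embedding `τ'`
  (every `Gal(K_w/k_v)`-equivariant function `Gal(K/k) → K_wˣ` comes from an idele);
* `exists_jclass` : Shapiro surjectivity for the ideles (`H85.exists_class_of_glue`);
* `jSurjStatement`.
-/
import Mathlib
import Fermat.Agent.S55.H85.ShapSurj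
import Fermat.Agent.S55.H29.C8Cls
import Fermat.Agent.S55.H16.CycLoc

set_option autoImplicit false
set_option linter.unusedSectionVars false

open CategoryTheory groupCohomology Rep

noncomputable section

namespace Fermat.Agent.S55.H85

open Fermat.Agent.S55.H88 Fermat.Agent.S55.H66 Fermat.Agent.S55.H29

attribute [local instance] factOfPrimes

/-! ### Masks of semi-local units -/

section Mask

variable (q : ℕ) [Fact q.Prime] (K : Type) [Field K] (s : Set (K →+* PadicAlgCl q))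

theorem mulIndicator_mem_semiLocal
    (hs : ∀ (g : PadicAlgCl q ≃ₐ[ℚ_[q]] PadicAlgCl q) (τ : K →+* PadicAlgCl q),
      (g : PadicAlgCl q →+* PadicAlgCl q).comp τ ∈ s ↔ τ ∈ s) (f : semiLocal q K) :
    s.mulIndicator (f : (K →+* PadicAlgCl q) → PadicAlgCl q) ∈ semiLocal q K := by
  intro g τ
  by_cases hτ : τ ∈ s
  · rw [Set.mulIndicator_of_mem ((hs g τ).2 hτ), Set.mulIndicator_of_mem hτ]
    exact f.2 g τ
  · rw [Set.mulIndicator_of_notMem (fun h => hτ ((hs g τ).1 h)), Set.mulIndicator_of_notMem hτ,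
      map_one]

/-- The mask of a semi-local unit on a Galois-stable set `s` of embeddings: the same values on
`s`, the value `1` elsewhere. -/
def maskUnit
    (hs : ∀ (g : PadicAlgCl q ≃ₐ[ℚ_[q]] PadicAlgCl q) (τ : K →+* PadicAlgCl q),
      (g : PadicAlgCl q →+* PadicAlgCl q).comp τ ∈ s ↔ τ ∈ s) :
    (semiLocal q K)ˣ →* (semiLocal q K)ˣ where
  toFun u :=
    ⟨⟨s.mulIndicator ((u : semiLocal q K) : (K →+* PadicAlgCl q) → PadicAlgCl q),
        mulIndicator_mem_semiLocal q K s hs u⟩,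
      ⟨s.mulIndicator (((u⁻¹ : (semiLocal q K)ˣ) : semiLocal q K) :
          (K →+* PadicAlgCl q) → PadicAlgCl q),
        mulIndicator_mem_semiLocal q K s hs _⟩,
      Subtype.ext (funext fun τ => by
        show s.mulIndicator ((u : semiLocal q K) : (K →+* PadicAlgCl q) → PadicAlgCl q) τ *
          s.mulIndicator (((u⁻¹ : (semiLocal q K)ˣ) : semiLocal q K) :
            (K →+* PadicAlgCl q) → PadicAlgCl q) τ = 1
        by_cases hτ : τ ∈ s
        · rw [Set.mulIndicator_of_mem hτ, Set.mulIndicator_of_mem hτ]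
          exact congrArg (fun f : semiLocal q K =>
            (f : (K →+* PadicAlgCl q) → PadicAlgCl q) τ) u.mul_inv
        · rw [Set.mulIndicator_of_notMem hτ, Set.mulIndicator_of_notMem hτ, one_mul]),
      Subtype.ext (funext fun τ => by
        show s.mulIndicator (((u⁻¹ : (semiLocal q K)ˣ) : semiLocal q K) :
            (K →+* PadicAlgCl q) → PadicAlgCl q) τ *
          s.mulIndicator ((u : semiLocal q K) : (K →+* PadicAlgCl q) → PadicAlgCl q) τ = 1
        by_cases hτ : τ ∈ s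
        · rw [Set.mulIndicator_of_mem hτ, Set.mulIndicator_of_mem hτ]
          exact congrArg (fun f : semiLocal q K =>
            (f : (K →+* PadicAlgCl q) → PadicAlgCl q) τ) u.inv_mul
        · rw [Set.mulIndicator_of_notMem hτ, Set.mulIndicator_of_notMem hτ, one_mul])⟩
  map_one' := Units.ext (Subtype.ext (funext fun τ => by
    show s.mulIndicator (((1 : (semiLocal q K)ˣ) : semiLocal q K) :
      (K →+* PadicAlgCl q) → PadicAlgCl q) τ = 1
    by_cases hτ : τ ∈ s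
    · rw [Set.mulIndicator_of_mem hτ]
      rfl
    · rw [Set.mulIndicator_of_notMem hτ]))
  map_mul' u v := Units.ext (Subtype.ext (funext fun τ => by
    show s.mulIndicator (((u * v : (semiLocal q K)ˣ) : semiLocal q K) :
        (K →+* PadicAlgCl q) → PadicAlgCl q) τ
      = s.mulIndicator ((u : semiLocal q K) : (K →+* PadicAlgCl q) → PadicAlgCl q) τ *
        s.mulIndicator ((v : semiLocal q K) : (K →+* PadicAlgCl q) → PadicAlgCl q) τ
    by_cases hτ : τ ∈ s
    · rw [Set.mulIndicator_of_mem hτ, Set.mulIndicator_of_mem hτ, Set.mulIndicator_of_mem hτ]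
      rfl
    · rw [Set.mulIndicator_of_notMem hτ, Set.mulIndicator_of_notMem hτ,
        Set.mulIndicator_of_notMem hτ, one_mul]))

theorem maskUnit_apply
    (hs : ∀ (g : PadicAlgCl q ≃ₐ[ℚ_[q]] PadicAlgCl q) (τ : K →+* PadicAlgCl q),
      (g : PadicAlgCl q →+* PadicAlgCl q).comp τ ∈ s ↔ τ ∈ s)
    (u : (semiLocal q K)ˣ) (τ : K →+* PadicAlgCl q) :
    (((maskUnit q K s hs u : (semiLocal q K)ˣ) : semiLocal q K) :
        (K →+* PadicAlgCl q) → PadicAlgCl q) τ
      = s.mulIndicator ((u : semiLocal q K) : (K →+* PadicAlgCl q) → PadicAlgCl q) τ := rfl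

theorem maskUnit_mem_semiLocalUnits
    (hs : ∀ (g : PadicAlgCl q ≃ₐ[ℚ_[q]] PadicAlgCl q) (τ : K →+* PadicAlgCl q),
      (g : PadicAlgCl q →+* PadicAlgCl q).comp τ ∈ s ↔ τ ∈ s)
    {u : (semiLocal q K)ˣ} (hu : u ∈ semiLocalUnits q K) :
    maskUnit q K s hs u ∈ semiLocalUnits q K := by
  intro τ
  show ‖s.mulIndicator ((u : semiLocal q K) : (K →+* PadicAlgCl q) → PadicAlgCl q) τ‖ = 1
  by_cases hτ : τ ∈ s
  · rw [Set.mulIndicator_of_mem hτ]
    exact hu τ
  · rw [Set.mulIndicator_of_notMem hτ]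
    exact norm_one

end Mask

/-! ### The projector of the ideles onto the factor at a place of `k` -/

section Proj

variable (k K : Type) [Field k] [Field K] [Algebra k K]

/-- The embeddings of `K` (at the prime `q'`) whose restriction to `k` lies in the place `v`. -/
def aboveSet (v : FinPlace k) (q' : Nat.Primes) : Set (K →+* PadicAlgCl (q' : ℕ)) :=
  {τ | (⟨q', placeOf (q' : ℕ) (τ.comp (algebraMap k K))⟩ : FinPlace k) = v}

theorem mem_aboveSet_iff (v : FinPlace k) (q' : Nat.Primes) (τ : K →+* PadicAlgCl (q' : ℕ)) :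
    τ ∈ aboveSet k K v q' ↔
      (⟨q', placeOf (q' : ℕ) (τ.comp (algebraMap k K))⟩ : FinPlace k) = v := Iff.rfl

theorem aboveSet_comp (v : FinPlace k) (q' : Nat.Primes)
    (g : PadicAlgCl (q' : ℕ) ≃ₐ[ℚ_[(q' : ℕ)]] PadicAlgCl (q' : ℕ))
    (τ : K →+* PadicAlgCl (q' : ℕ)) :
    (g : PadicAlgCl (q' : ℕ) →+* PadicAlgCl (q' : ℕ)).comp τ ∈ aboveSet k K v q' ↔
      τ ∈ aboveSet k K v q' := by
  have h : placeOf (q' : ℕ) (τ.comp (algebraMap k K)) = placeOf (q' : ℕ)
        (((g : PadicAlgCl (q' : ℕ) →+* PadicAlgCl (q' : ℕ)).comp τ).comp (algebraMap k K)) :=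
    Quotient.sound (s := placeSetoid (q' : ℕ) k) (a := τ.comp (algebraMap k K))
      (b := ((g : PadicAlgCl (q' : ℕ) →+* PadicAlgCl (q' : ℕ)).comp τ).comp (algebraMap k K))
      ⟨g, rfl⟩
  rw [mem_aboveSet_iff, mem_aboveSet_iff, ← h]

theorem aboveSet_comp_gal (v : FinPlace k) (q' : Nat.Primes) (σ : K ≃ₐ[k] K)
    (τ : K →+* PadicAlgCl (q' : ℕ)) :
    τ.comp ((σ : K ≃+* K) : K →+* K) ∈ aboveSet k K v q' ↔ τ ∈ aboveSet k K v q' := by
  have h : (τ.comp ((σ : K ≃+* K) : K →+* K)).comp (algebraMap k K)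
      = τ.comp (algebraMap k K) := RingHom.ext fun x => congrArg τ (σ.commutes x)
  rw [mem_aboveSet_iff, mem_aboveSet_iff, h]

/-- The value of an idele at an embedding. -/
def ideleVal (x : ideleGroup K) (q' : Nat.Primes) (τ : K →+* PadicAlgCl (q' : ℕ)) :
    PadicAlgCl (q' : ℕ) :=
  ((((x : ∀ q : Nat.Primes, (semiLocal (q : ℕ) K)ˣ) q' : (semiLocal (q' : ℕ) K)ˣ) :
    semiLocal (q' : ℕ) K) : (K →+* PadicAlgCl (q' : ℕ)) → PadicAlgCl (q' : ℕ)) τ

variable {K} in
theorem idele_ext {x y : ideleGroup K}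
    (h : ∀ (q' : Nat.Primes) (τ : K →+* PadicAlgCl (q' : ℕ)),
      ideleVal K x q' τ = ideleVal K y q' τ) : x = y :=
  Subtype.ext (funext fun q' => Units.ext (Subtype.ext (funext fun τ => h q' τ)))

theorem ideleVal_one (q' : Nat.Primes) (τ : K →+* PadicAlgCl (q' : ℕ)) :
    ideleVal K 1 q' τ = 1 := rfl

theorem ideleVal_comp (x : ideleGroup K) (q' : Nat.Primes)
    (g : PadicAlgCl (q' : ℕ) ≃ₐ[ℚ_[(q' : ℕ)]] PadicAlgCl (q' : ℕ))
    (τ : K →+* PadicAlgCl (q' : ℕ)) :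
    ideleVal K x q' ((g : PadicAlgCl (q' : ℕ) →+* PadicAlgCl (q' : ℕ)).comp τ)
      = g (ideleVal K x q' τ) :=
  (((x : ∀ q : Nat.Primes, (semiLocal (q : ℕ) K)ˣ) q' : (semiLocal (q' : ℕ) K)ˣ) :
    semiLocal (q' : ℕ) K).2 g τ

theorem ideleVal_smul (σ : K ≃ₐ[k] K) (x : ideleGroup K) (q' : Nat.Primes)
    (τ : K →+* PadicAlgCl (q' : ℕ)) :
    ideleVal K (σ • x) q' τ = ideleVal K x q' (τ.comp ((σ : K ≃+* K) : K →+* K)) := rfl

/-- The projector of the ideles of `K` onto the factor at the place `v` of `k`. -/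
def ideleProjAt (v : FinPlace k) : ideleGroup K →* ideleGroup K where
  toFun x := ⟨fun q' => maskUnit (q' : ℕ) K (aboveSet k K v q') (aboveSet_comp k K v q')
      ((x : ∀ q : Nat.Primes, (semiLocal (q : ℕ) K)ˣ) q'),
    Set.Finite.subset x.2 fun q' hq' h =>
      hq' (maskUnit_mem_semiLocalUnits (q' : ℕ) K _ _ h)⟩
  map_one' := Subtype.ext (funext fun _ => map_one _)
  map_mul' _ _ := Subtype.ext (funext fun _ => map_mul _ _ _)

theorem ideleVal_proj (v : FinPlace k) (x : ideleGroup K) (q' : Nat.Primes)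
    (τ : K →+* PadicAlgCl (q' : ℕ)) :
    ideleVal K (ideleProjAt k K v x) q' τ
      = (aboveSet k K v q').mulIndicator (ideleVal K x q') τ := rfl

theorem ideleProjAt_smul (v : FinPlace k) (σ : K ≃ₐ[k] K) (x : ideleGroup K) :
    ideleProjAt k K v (σ • x) = σ • ideleProjAt k K v x := by
  refine idele_ext fun q' τ => ?_
  rw [ideleVal_proj, ideleVal_smul, ideleVal_proj]
  by_cases hτ : τ ∈ aboveSet k K v q'
  · rw [Set.mulIndicator_of_mem hτ,
      Set.mulIndicator_of_mem ((aboveSet_comp_gal k K v q' σ τ).2 hτ)]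
    rfl
  · rw [Set.mulIndicator_of_notMem hτ,
      Set.mulIndicator_of_notMem (fun h => hτ ((aboveSet_comp_gal k K v q' σ τ).1 h))]

/-- The projector onto the factor at `v`, as an endomorphism of the idele representation. -/
def ideleProjRep (v : FinPlace k) : ideleRep k K ⟶ ideleRep k K :=
  Rep.ofHom ⟨(MonoidHom.toAdditive (ideleProjAt k K v)).toIntLinearMap,
    fun σ => LinearMap.ext fun x => congrArg Additive.ofMul
      (ideleProjAt_smul k K v σ (Additive.toMul (α := ideleGroup K) x))⟩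

theorem ideleProjRep_hom_apply (v : FinPlace k) (x : (ideleRep k K).V) :
    (ideleProjRep k K v).hom x
      = Additive.ofMul (ideleProjAt k K v (Additive.toMul (α := ideleGroup K) x)) := rfl

end Proj

/-! ### Localisation and the projector -/

section Loc

variable (k K : Type) [Field k] [Field K] [Algebra k K] [Normal k K]
  (q : Nat.Primes) (τ' : K →+* PadicAlgCl (q : ℕ))

/-- The value in `Ω` of an element of `K_wˣ` (additive notation). -/
def locVal (b : (Rep.ofAlgebraAutOnUnits (locBase (q : ℕ) k τ') (locExt (q : ℕ) k τ')).V) :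
    PadicAlgCl (q : ℕ) :=
  (((Additive.toMul (α := (locExt (q : ℕ) k τ')ˣ) b : (locExt (q : ℕ) k τ')ˣ) :
    locExt (q : ℕ) k τ') : PadicAlgCl (q : ℕ))

variable {k K q τ'} in
theorem locVal_injective
    {b b' : (Rep.ofAlgebraAutOnUnits (locBase (q : ℕ) k τ') (locExt (q : ℕ) k τ')).V}
    (h : locVal k K q τ' b = locVal k K q τ' b') : b = b' :=
  congrArg Additive.ofMul (Units.ext (Subtype.ext h))

theorem locVal_zero : locVal k K q τ' 0 = 1 := rfl

theorem locVal_ne_zero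
    (b : (Rep.ofAlgebraAutOnUnits (locBase (q : ℕ) k τ') (locExt (q : ℕ) k τ')).V) :
    locVal k K q τ' b ≠ 0 := fun h =>
  (Additive.toMul (α := (locExt (q : ℕ) k τ')ˣ) b).ne_zero (Subtype.ext h)

theorem locVal_ρ (α : locExt (q : ℕ) k τ' ≃ₐ[locBase (q : ℕ) k τ'] locExt (q : ℕ) k τ')
    (b : (Rep.ofAlgebraAutOnUnits (locBase (q : ℕ) k τ') (locExt (q : ℕ) k τ')).V) :
    locVal k K q τ' ((Rep.ofAlgebraAutOnUnits (locBase (q : ℕ) k τ') (locExt (q : ℕ) k τ')).ρ α b)
      = ((α ((Additive.toMul (α := (locExt (q : ℕ) k τ')ˣ) b : (locExt (q : ℕ) k τ')ˣ) :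
          locExt (q : ℕ) k τ') : locExt (q : ℕ) k τ') : PadicAlgCl (q : ℕ)) := rfl

/-- The value of the localisation of an idele. -/
theorem locVal_ideleToLoc (x : (ideleRep k K).V) :
    locVal k K q τ' ((ideleToLoc k q τ').hom x)
      = ideleVal K (Additive.toMul (α := ideleGroup K) x) q τ' := rfl

theorem locVal_ideleToLoc_ρ (σ : K ≃ₐ[k] K) (x : (ideleRep k K).V) :
    locVal k K q τ' ((ideleToLoc k q τ').hom ((ideleRep k K).ρ σ x))
      = ideleVal K (Additive.toMul (α := ideleGroup K) x) q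
          (τ'.comp ((σ : K ≃+* K) : K →+* K)) := rfl

/-- (h1) Localisation at a place above `v` does not see the projector at `v`. -/
theorem ideleToLoc_proj (v : FinPlace k)
    (hv : (⟨q, placeOf (q : ℕ) (τ'.comp (algebraMap k K))⟩ : FinPlace k) = v)
    (a : (ideleRep k K).V) (σ : K ≃ₐ[k] K) :
    (ideleToLoc k q τ').hom ((ideleRep k K).ρ σ ((ideleProjRep k K v).hom a))
      = (ideleToLoc k q τ').hom ((ideleRep k K).ρ σ a) := by
  apply locVal_injective
  rw [locVal_ideleToLoc_ρ, locVal_ideleToLoc_ρ]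
  show ideleVal K (ideleProjAt k K v (Additive.toMul (α := ideleGroup K) a)) q
      (τ'.comp ((σ : K ≃+* K) : K →+* K)) = _
  have hτ : τ'.comp ((σ : K ≃+* K) : K →+* K) ∈ aboveSet k K v q :=
    (aboveSet_comp_gal k K v q σ τ').2 hv
  rw [ideleVal_proj]
  exact Set.mulIndicator_of_mem hτ _

/-- Localisation at a place not above `v` kills the projector at `v`. -/
theorem ideleToLoc_proj_eq_zero (v : FinPlace k)
    (hv : (⟨q, placeOf (q : ℕ) (τ'.comp (algebraMap k K))⟩ : FinPlace k) ≠ v)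
    (a : (ideleRep k K).V) :
    (ideleToLoc k q τ').hom ((ideleProjRep k K v).hom a) = 0 := by
  apply locVal_injective
  rw [locVal_ideleToLoc, locVal_zero]
  show ideleVal K (ideleProjAt k K v (Additive.toMul (α := ideleGroup K) a)) q τ' = 1
  have hτ : τ' ∉ aboveSet k K v q := hv
  rw [ideleVal_proj]
  exact Set.mulIndicator_of_notMem hτ _

/-- (h2) An idele all of whose conjugates localise trivially at `τ'` has trivial projection at
the place of `τ'`. -/
theorem ideleProj_eq_zero_of_loc (a : (ideleRep k K).V)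
    (h : ∀ σ : K ≃ₐ[k] K, (ideleToLoc k q τ').hom ((ideleRep k K).ρ σ a) = 0) :
    (ideleProjRep k K ⟨q, placeOf (q : ℕ) (τ'.comp (algebraMap k K))⟩).hom a = 0 := by
  have hval : ∀ σ : K ≃ₐ[k] K, ideleVal K (Additive.toMul (α := ideleGroup K) a) q
      (τ'.comp ((σ : K ≃+* K) : K →+* K)) = 1 := by
    intro σ
    rw [← locVal_ideleToLoc_ρ, h σ, locVal_zero]
  rw [ideleProjRep_hom_apply]
  refine congrArg Additive.ofMul (idele_ext fun q'' τ => ?_)
  rw [ideleVal_proj, ideleVal_one]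
  by_cases hτ : τ ∈ aboveSet k K ⟨q, placeOf (q : ℕ) (τ'.comp (algebraMap k K))⟩ q''
  · rw [Set.mulIndicator_of_mem hτ]
    rw [mem_aboveSet_iff] at hτ
    obtain ⟨rfl, h2⟩ := Sigma.mk.inj_iff.1 hτ
    have h3 : placeOf (q'' : ℕ) (τ.comp (algebraMap k K))
        = placeOf (q'' : ℕ) (τ'.comp (algebraMap k K)) := eq_of_heq h2
    obtain ⟨g, hg⟩ := Quotient.exact h3
    have h4 : τ'.comp (algebraMap k K)
        = ((g : PadicAlgCl (q'' : ℕ) →+* PadicAlgCl (q'' : ℕ)).comp τ).comp (algebraMap k K) := hg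
    obtain ⟨σ, hσ⟩ := exists_algEquiv_comp_eq (q'' : ℕ) τ'
      ((g : PadicAlgCl (q'' : ℕ) →+* PadicAlgCl (q'' : ℕ)).comp τ) h4
    have h5 := ideleVal_comp K (Additive.toMul (α := ideleGroup K) a) q'' g τ
    rw [hσ, hval σ] at h5
    exact (EmbeddingLike.map_eq_one_iff (f := g)).1 h5.symm
  · rw [Set.mulIndicator_of_notMem hτ]

end Loc

/-! ### Gluing along the orbit of one embedding -/

section Glue

variable (q : ℕ) [Fact q.Prime] (k K : Type) [Field k] [Field K] [Algebra k K] [Normal k K]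
  (τ' : K →+* PadicAlgCl q)

/-- An element `g` of the local Galois group with `τ' ∘ σ = g ∘ τ'` restricts to an element of
`Gal(K_w / k_v)` mapping to `σ`. -/
theorem exists_locGal_of_comp (g : PadicAlgCl q ≃ₐ[ℚ_[q]] PadicAlgCl q) (σ : K ≃ₐ[k] K)
    (hg : τ'.comp ((σ : K ≃+* K) : K →+* K) = (g : PadicAlgCl q →+* PadicAlgCl q).comp τ') :
    ∃ α : locExt q k τ' ≃ₐ[locBase q k τ'] locExt q k τ', locGalToGlobal q k τ' α = σ ∧
      ∀ z : locExt q k τ', ((α z : locExt q k τ') : PadicAlgCl q) = g (z : PadicAlgCl q) := by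
  refine ⟨H71.globToLoc q τ' σ g hg, ?_, fun z => rfl⟩
  refine AlgEquiv.ext fun x => τ'.injective ?_
  have h := locGalToGlobal_spec q k τ' (H71.globToLoc q τ' σ g hg) x
  have h2 : g (τ' x) = τ' (locGalToGlobal q k τ' (H71.globToLoc q τ' σ g hg) x) :=
    congrArg (fun z : locExt q k τ' => (z : PadicAlgCl q)) h
  rw [← h2]
  exact (RingHom.congr_fun hg x).symm

/-- **Gluing along one orbit.**  A function `Fv` on `Gal(K/k)` with values in `Ω`, equivariant
for the pairs `(g, σ)` with `τ' ∘ σ = g ∘ τ'`, is `x ↦ a (τ' ∘ x)` for a semi-local element `a`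
which is `1` outside the orbit of `τ'`. -/
theorem exists_semiLocal_orbit (Fv : (K ≃ₐ[k] K) → PadicAlgCl q)
    (hF : ∀ (g : PadicAlgCl q ≃ₐ[ℚ_[q]] PadicAlgCl q) (σ x : K ≃ₐ[k] K),
      τ'.comp ((σ : K ≃+* K) : K →+* K) = (g : PadicAlgCl q →+* PadicAlgCl q).comp τ' →
        Fv (σ * x) = g (Fv x)) :
    ∃ a : semiLocal q K,
      (∀ (g : PadicAlgCl q ≃ₐ[ℚ_[q]] PadicAlgCl q) (x : K ≃ₐ[k] K),
        (a : (K →+* PadicAlgCl q) → PadicAlgCl q)
          ((g : PadicAlgCl q →+* PadicAlgCl q).comp (τ'.comp ((x : K ≃+* K) : K →+* K)))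
          = g (Fv x)) ∧
      ∀ τ : K →+* PadicAlgCl q,
        (¬ ∃ (g : PadicAlgCl q ≃ₐ[ℚ_[q]] PadicAlgCl q) (x : K ≃ₐ[k] K),
          τ = (g : PadicAlgCl q →+* PadicAlgCl q).comp (τ'.comp ((x : K ≃+* K) : K →+* K))) →
        (a : (K →+* PadicAlgCl q) → PadicAlgCl q) τ = 1 := by
  classical
  -- well-definedness
  have wd : ∀ (g g' : PadicAlgCl q ≃ₐ[ℚ_[q]] PadicAlgCl q) (x x' : K ≃ₐ[k] K),
      (g : PadicAlgCl q →+* PadicAlgCl q).comp (τ'.comp ((x : K ≃+* K) : K →+* K))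
        = (g' : PadicAlgCl q →+* PadicAlgCl q).comp (τ'.comp ((x' : K ≃+* K) : K →+* K)) →
      g (Fv x) = g' (Fv x') := by
    intro g g' x x' h
    have hd : τ'.comp (((x' * x⁻¹ : K ≃ₐ[k] K) : K ≃+* K) : K →+* K)
        = ((g'⁻¹ * g : PadicAlgCl q ≃ₐ[ℚ_[q]] PadicAlgCl q) :
            PadicAlgCl q →+* PadicAlgCl q).comp τ' := by
      refine RingHom.ext fun y => ?_
      show τ' (x' (x⁻¹ y)) = g'⁻¹ (g (τ' y))
      have h1 : g (τ' (x (x⁻¹ y))) = g' (τ' (x' (x⁻¹ y))) := RingHom.congr_fun h (x⁻¹ y)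
      rw [show x (x⁻¹ y) = y from x.apply_symm_apply y] at h1
      rw [h1]
      exact (g'.symm_apply_apply _).symm
    have h2 := hF (g'⁻¹ * g) (x' * x⁻¹) x hd
    rw [inv_mul_cancel_right] at h2
    rw [h2]
    show g (Fv x) = g' (g'⁻¹ (g (Fv x)))
    exact (g'.apply_symm_apply _).symm
  let Orb : (K →+* PadicAlgCl q) → Prop := fun τ =>
    ∃ (g : PadicAlgCl q ≃ₐ[ℚ_[q]] PadicAlgCl q) (x : K ≃ₐ[k] K),
      τ = (g : PadicAlgCl q →+* PadicAlgCl q).comp (τ'.comp ((x : K ≃+* K) : K →+* K))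
  let f : (K →+* PadicAlgCl q) → PadicAlgCl q := fun τ =>
    if h : Orb τ then (Classical.choose h) (Fv (Classical.choose (Classical.choose_spec h)))
    else 1
  have hf_orb : ∀ (g : PadicAlgCl q ≃ₐ[ℚ_[q]] PadicAlgCl q) (x : K ≃ₐ[k] K),
      f ((g : PadicAlgCl q →+* PadicAlgCl q).comp (τ'.comp ((x : K ≃+* K) : K →+* K)))
        = g (Fv x) := by
    intro g x
    have ho : Orb ((g : PadicAlgCl q →+* PadicAlgCl q).comp
        (τ'.comp ((x : K ≃+* K) : K →+* K))) := ⟨g, x, rfl⟩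
    show (if h : Orb ((g : PadicAlgCl q →+* PadicAlgCl q).comp
        (τ'.comp ((x : K ≃+* K) : K →+* K))) then
          (Classical.choose h) (Fv (Classical.choose (Classical.choose_spec h))) else 1) = g (Fv x)
    rw [dif_pos ho]
    exact wd _ _ _ _ (Classical.choose_spec (Classical.choose_spec ho)).symm
  have hf_not : ∀ τ : K →+* PadicAlgCl q, ¬ Orb τ → f τ = 1 := fun τ h => dif_neg h
  refine ⟨⟨f, ?_⟩, hf_orb, hf_not⟩
  intro g₁ τ
  by_cases ho : Orb τ
  · obtain ⟨g, x, rfl⟩ := ho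
    have h1 : (g₁ : PadicAlgCl q →+* PadicAlgCl q).comp
          ((g : PadicAlgCl q →+* PadicAlgCl q).comp (τ'.comp ((x : K ≃+* K) : K →+* K)))
        = ((g₁ * g : PadicAlgCl q ≃ₐ[ℚ_[q]] PadicAlgCl q) :
            PadicAlgCl q →+* PadicAlgCl q).comp (τ'.comp ((x : K ≃+* K) : K →+* K)) := rfl
    rw [h1, hf_orb, hf_orb]
    rfl
  · have ho' : ¬ Orb ((g₁ : PadicAlgCl q →+* PadicAlgCl q).comp τ) := by
      rintro ⟨g, x, h⟩
      refine ho ⟨g₁⁻¹ * g, x, RingHom.ext fun y => ?_⟩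
      have h1 : g₁ (τ y) = g (τ' (x y)) := RingHom.congr_fun h y
      show τ y = g₁⁻¹ (g (τ' (x y)))
      rw [← h1]
      exact (g₁.symm_apply_apply _).symm
    rw [hf_not _ ho', hf_not _ ho, map_one]

end Glue

section IdeleGlue

variable (k K : Type) [Field k] [Field K] [Algebra k K] [Normal k K]
  (q : Nat.Primes) (τ' : K →+* PadicAlgCl (q : ℕ))

/-- (h3) **Gluing for the ideles.**  Every `Gal(K_w/k_v)`-equivariant function
`Gal(K/k) → K_wˣ` is `x ↦ (x • a)_{τ'}` for an idele `a` (supported at the orbit of `τ'`). -/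
theorem exists_idele_glue
    (F : (K ≃ₐ[k] K) →
      (Rep.ofAlgebraAutOnUnits (locBase (q : ℕ) k τ') (locExt (q : ℕ) k τ')).V)
    (hF : ∀ (h : locExt (q : ℕ) k τ' ≃ₐ[locBase (q : ℕ) k τ'] locExt (q : ℕ) k τ')
      (x : K ≃ₐ[k] K), F (locGalToGlobal (q : ℕ) k τ' h * x)
        = (Rep.ofAlgebraAutOnUnits (locBase (q : ℕ) k τ') (locExt (q : ℕ) k τ')).ρ h (F x)) :
    ∃ a : (ideleRep k K).V, ∀ x : K ≃ₐ[k] K,
      (ideleToLoc k q τ').hom ((ideleRep k K).ρ x a) = F x := by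
  classical
  have hFv : ∀ (g : PadicAlgCl (q : ℕ) ≃ₐ[ℚ_[(q : ℕ)]] PadicAlgCl (q : ℕ)) (σ x : K ≃ₐ[k] K),
      τ'.comp ((σ : K ≃+* K) : K →+* K)
        = (g : PadicAlgCl (q : ℕ) →+* PadicAlgCl (q : ℕ)).comp τ' →
      locVal k K q τ' (F (σ * x)) = g (locVal k K q τ' (F x)) := by
    intro g σ x hg
    obtain ⟨α, hα, hαg⟩ := exists_locGal_of_comp (q : ℕ) k K τ' g σ hg
    have h1 := hF α x
    rw [hα] at h1
    rw [h1, locVal_ρ]
    exact hαg _
  have hFv' : ∀ (g : PadicAlgCl (q : ℕ) ≃ₐ[ℚ_[(q : ℕ)]] PadicAlgCl (q : ℕ)) (σ x : K ≃ₐ[k] K),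
      τ'.comp ((σ : K ≃+* K) : K →+* K)
        = (g : PadicAlgCl (q : ℕ) →+* PadicAlgCl (q : ℕ)).comp τ' →
      (locVal k K q τ' (F (σ * x)))⁻¹ = g ((locVal k K q τ' (F x))⁻¹) := by
    intro g σ x hg
    rw [hFv g σ x hg, map_inv₀]
  obtain ⟨a, ha, ha1⟩ := exists_semiLocal_orbit (q : ℕ) k K τ'
    (fun x => locVal k K q τ' (F x)) hFv
  obtain ⟨a', ha', ha1'⟩ := exists_semiLocal_orbit (q : ℕ) k K τ'
    (fun x => (locVal k K q τ' (F x))⁻¹) hFv'
  have hmul : a * a' = 1 := by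
    refine Subtype.ext (funext fun τ => ?_)
    show (a : (K →+* PadicAlgCl (q : ℕ)) → PadicAlgCl (q : ℕ)) τ *
      (a' : (K →+* PadicAlgCl (q : ℕ)) → PadicAlgCl (q : ℕ)) τ = 1
    by_cases ho : ∃ (g : PadicAlgCl (q : ℕ) ≃ₐ[ℚ_[(q : ℕ)]] PadicAlgCl (q : ℕ))
        (x : K ≃ₐ[k] K), τ = (g : PadicAlgCl (q : ℕ) →+* PadicAlgCl (q : ℕ)).comp
          (τ'.comp ((x : K ≃+* K) : K →+* K))
    · obtain ⟨g, x, rfl⟩ := ho
      rw [ha, ha', ← map_mul, mul_inv_cancel₀ (locVal_ne_zero k K q τ' (F x)), map_one]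
    · rw [ha1 τ ho, ha1' τ ho, one_mul]
  let u : (semiLocal (q : ℕ) K)ˣ := ⟨a, a', hmul, (mul_comm a' a).trans hmul⟩
  have hfin : {q' : Nat.Primes | (Pi.mulSingle q u : ∀ q' : Nat.Primes, (semiLocal (q' : ℕ) K)ˣ) q'
      ∉ semiLocalUnits (q' : ℕ) K}.Finite := by
    refine (Set.finite_singleton q).subset fun q' hq' => ?_
    by_contra hne
    apply hq'
    have hne' : q' ≠ q := hne
    rw [Pi.mulSingle_eq_of_ne hne']
    exact Subgroup.one_mem _
  let X : ideleGroup K := ⟨Pi.mulSingle q u, hfin⟩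
  have hX : ∀ τ : K →+* PadicAlgCl (q : ℕ), ideleVal K X q τ
      = (a : (K →+* PadicAlgCl (q : ℕ)) → PadicAlgCl (q : ℕ)) τ := by
    intro τ
    have h1 : (X : ∀ q' : Nat.Primes, (semiLocal (q' : ℕ) K)ˣ) q = u := by
      show (Pi.mulSingle q u : ∀ q' : Nat.Primes, (semiLocal (q' : ℕ) K)ˣ) q = u
      exact Pi.mulSingle_eq_same (M := fun q' : Nat.Primes => (semiLocal (q' : ℕ) K)ˣ) q u
    show ((((X : ∀ q' : Nat.Primes, (semiLocal (q' : ℕ) K)ˣ) q : (semiLocal (q : ℕ) K)ˣ) :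
      semiLocal (q : ℕ) K) : (K →+* PadicAlgCl (q : ℕ)) → PadicAlgCl (q : ℕ)) τ = _
    rw [h1]
  refine ⟨Additive.ofMul X, fun x => locVal_injective ?_⟩
  rw [locVal_ideleToLoc_ρ]
  show ideleVal K X q (τ'.comp ((x : K ≃+* K) : K →+* K)) = locVal k K q τ' (F x)
  rw [hX]
  have h2 := ha 1 x
  have h3 : ((1 : PadicAlgCl (q : ℕ) ≃ₐ[ℚ_[(q : ℕ)]] PadicAlgCl (q : ℕ)) :
      PadicAlgCl (q : ℕ) →+* PadicAlgCl (q : ℕ)).comp (τ'.comp ((x : K ≃+* K) : K →+* K))
      = τ'.comp ((x : K ≃+* K) : K →+* K) := RingHom.ext fun y => rfl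
  rw [h3] at h2
  exact h2

end IdeleGlue

/-! ### The leaf -/

section Final

variable (k K : Type) [Field k] [NumberField k] [Field K] [NumberField K] [Algebra k K]
  [IsGalois k K]

/-- **Shapiro surjectivity for the ideles**: every class of `H²(Gal(K_w/k_v), K_wˣ)` is the
localisation at `τ'` of a class `H²(E) y`, `E` the projector at the place of `k` under `τ'`. -/
theorem exists_jclass (q : Nat.Primes) (τ' : K →+* PadicAlgCl (q : ℕ))
    (x : groupCohomology
      (Rep.ofAlgebraAutOnUnits (locBase (q : ℕ) k τ') (locExt (q : ℕ) k τ')) 2) :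
    ∃ y : groupCohomology (ideleRep k K) 2,
      (map (locGalToGlobal (q : ℕ) k τ') (ideleToLoc k q τ') 2).hom
        ((map (MonoidHom.id (K ≃ₐ[k] K))
          (ideleProjRep k K ⟨q, placeOf (q : ℕ) (τ'.comp (algebraMap k K))⟩) 2).hom y) = x :=
  exists_class_of_glue (locGalToGlobal (q : ℕ) k τ')
    (H16.locGalToGlobal_injective (q : ℕ) k K τ') (ideleRep k K)
    (Rep.ofAlgebraAutOnUnits (locBase (q : ℕ) k τ') (locExt (q : ℕ) k τ'))
    (ideleToLoc k q τ') (ideleProjRep k K ⟨q, placeOf (q : ℕ) (τ'.comp (algebraMap k K))⟩)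
    (fun a σ => ideleToLoc_proj k K q τ' _ rfl a σ)
    (fun a h => ideleProj_eq_zero_of_loc k K q τ' a h)
    (fun F hF => exists_idele_glue k K q τ' F hF) 2 x

variable {k} in
/-- A finite place of `k` is the place of the restriction of its chosen extension to `K`. -/
theorem finPlace_eq_of_ext (v : FinPlace k) :
    (⟨v.1, placeOf (v.1 : ℕ) ((v.ext K).comp (algebraMap k K))⟩ : FinPlace k) = v := by
  rw [v.ext_comp K]
  obtain ⟨q, w⟩ := v
  exact congrArg (Sigma.mk q) (Quotient.out_eq w)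

/-- The local invariant at `v` does not see the projector at `v`. -/
theorem jinv_proj_self (v : FinPlace k) (y : groupCohomology (ideleRep k K) 2) :
    jinv k K v ((map (MonoidHom.id (K ≃ₐ[k] K)) (ideleProjRep k K v) 2).hom y)
      = jinv k K v y := by
  show H66.inv (v.1 : ℕ) (locExt (v.1 : ℕ) k (v.ext K))
      ((map (locGalToGlobal (v.1 : ℕ) k (v.ext K)) (ideleToLoc k v.1 (v.ext K)) 2).hom
        ((map (MonoidHom.id (K ≃ₐ[k] K)) (ideleProjRep k K v) 2).hom y))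
    = H66.inv (v.1 : ℕ) (locExt (v.1 : ℕ) k (v.ext K))
      ((map (locGalToGlobal (v.1 : ℕ) k (v.ext K)) (ideleToLoc k v.1 (v.ext K)) 2).hom y)
  rw [map_comp_eq_self (locGalToGlobal (v.1 : ℕ) k (v.ext K)) (ideleRep k K) _
    (ideleToLoc k v.1 (v.ext K)) (ideleProjRep k K v) (fun a => by
      have h := ideleToLoc_proj k K v.1 (v.ext K) v (finPlace_eq_of_ext K v) a 1
      rw [map_one] at h
      exact h) 2 y]

/-- The local invariants at the places `v' ≠ v` kill the image of the projector at `v`. -/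
theorem jinv_proj_of_ne (v v' : FinPlace k) (hv : v' ≠ v)
    (y : groupCohomology (ideleRep k K) 2) :
    jinv k K v' ((map (MonoidHom.id (K ≃ₐ[k] K)) (ideleProjRep k K v) 2).hom y) = 0 := by
  show H66.inv (v'.1 : ℕ) (locExt (v'.1 : ℕ) k (v'.ext K))
      ((map (locGalToGlobal (v'.1 : ℕ) k (v'.ext K)) (ideleToLoc k v'.1 (v'.ext K)) 2).hom
        ((map (MonoidHom.id (K ≃ₐ[k] K)) (ideleProjRep k K v) 2).hom y)) = 0
  rw [map_comp_eq_zero (locGalToGlobal (v'.1 : ℕ) k (v'.ext K)) (ideleRep k K) _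
    (ideleToLoc k v'.1 (v'.ext K)) (ideleProjRep k K v) (fun a =>
      ideleToLoc_proj_eq_zero k K v'.1 (v'.ext K) v
        (fun h => hv ((finPlace_eq_of_ext K v').symm.trans h)) a) 2 y, map_zero]

/-- **Leaf (J-SURJ)**, verbatim. -/
theorem jSurjStatement : JSurjStatement := by
  intro k K _ _ _ _ _ _ v t ht
  have := H16.finiteDimensional_locBase (v.1 : ℕ) k K (v.ext K)
  have := H16.finiteDimensional_locExt' (v.1 : ℕ) k K (v.ext K)
  have := H16.isGalois_locExt' (v.1 : ℕ) k K (v.ext K)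
  obtain ⟨x, hx⟩ := ((H66.c3_inv (v.1 : ℕ) (locBase (v.1 : ℕ) k (v.ext K))
    (locExt (v.1 : ℕ) k (v.ext K))).2.2 t).2 ht
  obtain ⟨y, hy⟩ := exists_jclass k K v.1 (v.ext K) x
  rw [finPlace_eq_of_ext K v] at hy
  refine ⟨(map (MonoidHom.id (K ≃ₐ[k] K)) (ideleProjRep k K v) 2).hom y, ?_, fun v' hv' => ?_⟩
  · show H66.inv (v.1 : ℕ) (locExt (v.1 : ℕ) k (v.ext K))
        ((map (locGalToGlobal (v.1 : ℕ) k (v.ext K)) (ideleToLoc k v.1 (v.ext K)) 2).hom
          ((map (MonoidHom.id (K ≃ₐ[k] K)) (ideleProjRep k K v) 2).hom y)) = t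
    rw [hy]
    exact hx
  · exact jinv_proj_of_ne k K v v' hv' y

end Final

end Fermat.Agent.S55.H85
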