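/-
S55 (Poitou–Tate), package C8, tool for leaf (J-SURJ) (helper85): SHAPIRO SURJECTIVITY.

* `shap_surjective` : for a subgroup `S ≤ G` and `B : Rep k S` the Shapiro map
  `Hⁿ(G, Coind_S^G B) ⟶ Hⁿ(S, B)` (helper71's `H71.shap`) is surjective for every `n`
  (dimension shifting, as `H71.shap_injective`).
* `exists_class_of_glue` : the form used for the ideles.  `φ : H →* G` injective, `A : Rep ℤ G`,
  `B : Rep ℤ H`, `e : Res_φ A ⟶ B`, and a `G`-endomorphism `E` of `A` ("projector on the part of
  `A` coinduced from `B`") with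
  (h1) `e (x • E a) = e (x • a)`, (h2) `(∀ x, e (x • a) = 0) → E a = 0`, (h3) every `φ`-equivariant
  `F : G → B` is `x ↦ e (x • a)` for some `a`.
  Then every class of `Hⁿ(H, B)` is the image under `map φ e n` of a class `Hⁿ(E) y`.
-/
import Mathlib
import Fermat.Agent.S55.H71.ShapiroAll

set_option autoImplicit false

universe u

open CategoryTheory groupCohomology Rep

noncomputable section

namespace Fermat.Agent.S55.H85

open Fermat.Agent.S55.H73 Fermat.Agent.S55.H71

section Core

variable {k G : Type u} [CommRing k] [Group G] (S : Subgroup G)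

/-- **Shapiro surjectivity in all degrees**: `Hⁿ(G, Coind_S^G B) ⟶ Hⁿ(S, B)` (restriction, then
evaluation at `1`) is surjective. -/
theorem shap_surjective (n : ℕ) : ∀ B : Rep.{u} k S, Function.Surjective (shap S B n).hom := by
  induction n with
  | zero => exact fun B => shap_zero_surjective S B
  | succ n ih =>
    intro B y
    have hY : (shiftSES B).ShortExact := shiftSES_shortExact B
    have hX : ((shiftSES B).map (coindFunctor k S.subtype)).ShortExact := coind_shortExact S hY
    have nat := δ_map_naturality S.subtype hX hY (coindEval S (shiftSES B).X₁)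
      (coindEval S (shiftSES B).X₂) (coindEval S (shiftSES B).X₃)
      (coindEval_naturality S (shiftSES B).f) (coindEval_naturality S (shiftSES B).g)
      n (n + 1) rfl
    have hS : Limits.IsZero (groupCohomology (shiftSES B).X₂ (n + 1)) := isZero_coindBot B n
    have hepi : Epi (δ hY n (n + 1) rfl) := epi_δ_of_isZero hY n hS
    obtain ⟨y', rfl⟩ := (ModuleCat.epi_iff_surjective _).1 hepi y
    obtain ⟨x', rfl⟩ := ih (shiftSES B).X₃ y'
    exact ⟨(δ hX n (n + 1) rfl).hom x', congrArg (fun F => F.hom x') nat⟩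

end Core

section Transport

variable {k H S : Type u} [CommRing k] [Group H] [Group S]

/-- The identity of `B`, from the double restriction along `ι` and `ι⁻¹`. -/
def transportBack (ι : H ≃* S) (B : Rep.{u} k H) :
    res ι.toMonoidHom (res ι.symm.toMonoidHom B) ⟶ B :=
  Rep.ofHom ⟨LinearMap.id, fun h => LinearMap.ext fun b => by
    show B.ρ (ι.symm (ι h)) b = B.ρ h b
    rw [MulEquiv.symm_apply_apply]⟩

theorem map_transport (ι : H ≃* S) (B : Rep.{u} k H) (n : ℕ) :
    map ι.symm.toMonoidHom (𝟙 (res ι.symm.toMonoidHom B)) n ≫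
      map ι.toMonoidHom (transportBack ι B) n = 𝟙 _ := by
  have h5 := map_comp ι.symm.toMonoidHom ι.toMonoidHom (𝟙 (res ι.symm.toMonoidHom B))
    (transportBack ι B) n
  have h6 : map (ι.symm.toMonoidHom.comp ι.toMonoidHom)
      ((resFunctor ι.toMonoidHom).map (𝟙 (res ι.symm.toMonoidHom B)) ≫ transportBack ι B) n
      = map (MonoidHom.id H) (𝟙 B) n :=
    map_congr (show ι.symm.toMonoidHom.comp ι.toMonoidHom = MonoidHom.id H from
      MonoidHom.ext fun h => ι.symm_apply_apply h) (LinearMap.ext fun b => rfl) n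
  rw [← h5, h6, map_id]

end Transport

section Glue

variable {k G H : Type u} [CommRing k] [Group G] [Group H] (φ : H →* G)
  (hφ : Function.Injective φ) (A : Rep.{u} k G) (B : Rep.{u} k H) (e : res φ A ⟶ B)

/-- `B` as a representation of the subgroup `φ(H)`. -/
def rangeRep : Rep.{u} k φ.range := res (MonoidHom.ofInjective hφ).symm.toMonoidHom B

theorem rangeRep_ρ (s : φ.range) (b : B.V) :
    (rangeRep φ hφ B).ρ s b = B.ρ ((MonoidHom.ofInjective hφ).symm s) b := rfl

theorem apply_ofInjective_symm (s : φ.range) :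
    φ ((MonoidHom.ofInjective hφ).symm s) = (s : G) := by
  have h : ((MonoidHom.ofInjective hφ ((MonoidHom.ofInjective hφ).symm s) : φ.range) : G)
      = φ ((MonoidHom.ofInjective hφ).symm s) := rfl
  rw [← h, MulEquiv.apply_symm_apply]

/-- `e` as a morphism of representations of the subgroup `φ(H)`. -/
def rangeHom : res φ.range.subtype A ⟶ rangeRep φ hφ B :=
  Rep.ofHom ⟨e.hom.toLinearMap, fun s => LinearMap.ext fun a => by
    show e.hom (A.ρ (s : G) a) = B.ρ ((MonoidHom.ofInjective hφ).symm s) (e.hom a)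
    have h := Rep.hom_comm_apply e ((MonoidHom.ofInjective hφ).symm s) a
    rw [← h]
    show e.hom (A.ρ (s : G) a) = e.hom (A.ρ (φ ((MonoidHom.ofInjective hφ).symm s)) a)
    rw [apply_ofInjective_symm]⟩

theorem rangeHom_apply (a : A.V) : (rangeHom φ hφ A B e).hom a = e.hom a := rfl

/-- The adjoint `A ⟶ Coind_{φ(H)}^G B` of `e`: `a ↦ (x ↦ e (x • a))`. -/
def glueEta : A ⟶ coind φ.range.subtype (rangeRep φ hφ B) :=
  resCoindToHom φ.range.subtype A (rangeRep φ hφ B) (rangeHom φ hφ A B e)

theorem glueEta_apply (a : A.V) (x : G) :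
    ((glueEta φ hφ A B e).hom a).1 x = e.hom (A.ρ x a) := rfl

/-- A morphism `s : Coind ⟶ A` with `e ∘ s = ` evaluation at `1` computes the Shapiro map. -/
theorem map_comp_section (s : coind φ.range.subtype (rangeRep φ hφ B) ⟶ A)
    (hs : ∀ F : (coind φ.range.subtype (rangeRep φ hφ B)).V, e.hom (s.hom F) = F.1 1) (n : ℕ) :
    map (MonoidHom.id G) s n ≫ map φ e n
      = shap φ.range (rangeRep φ hφ B) n ≫
          map (MonoidHom.ofInjective hφ).toMonoidHom
            (transportBack (MonoidHom.ofInjective hφ) B) n := by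
  have e1 : map (MonoidHom.id G) s n ≫ map φ e n
      = map φ ((resFunctor φ).map s ≫ e) n := by
    have h1 : cochainsMap (MonoidHom.id G) s ≫ cochainsMap φ e
        = cochainsMap φ ((resFunctor φ).map s ≫ e) := rfl
    have h := congrArg (fun F => HomologicalComplex.homologyMap F n) h1
    simp only [HomologicalComplex.homologyMap_comp] at h
    exact h
  have e2 : map φ.range.subtype (coindEval φ.range (rangeRep φ hφ B)) n ≫
        map (MonoidHom.ofInjective hφ).toMonoidHom (transportBack (MonoidHom.ofInjective hφ) B) n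
      = map (φ.range.subtype.comp (MonoidHom.ofInjective hφ).toMonoidHom)
          ((resFunctor (MonoidHom.ofInjective hφ).toMonoidHom).map
            (coindEval φ.range (rangeRep φ hφ B)) ≫
              transportBack (MonoidHom.ofInjective hφ) B) n :=
    (map_comp φ.range.subtype (MonoidHom.ofInjective hφ).toMonoidHom
      (coindEval φ.range (rangeRep φ hφ B)) (transportBack (MonoidHom.ofInjective hφ) B) n).symm
  have e3 : map φ ((resFunctor φ).map s ≫ e) n
      = map (φ.range.subtype.comp (MonoidHom.ofInjective hφ).toMonoidHom)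
          ((resFunctor (MonoidHom.ofInjective hφ).toMonoidHom).map
            (coindEval φ.range (rangeRep φ hφ B)) ≫
              transportBack (MonoidHom.ofInjective hφ) B) n :=
    map_congr (show φ
        = φ.range.subtype.comp (MonoidHom.ofInjective hφ).toMonoidHom from
      MonoidHom.ext fun h => rfl) (LinearMap.ext fun F => hs F) n
  rw [e1, e3, ← e2]
  rfl

end Glue

/-- **Shapiro surjectivity, glued form.**  `φ : H →* G` injective, `e : Res_φ A ⟶ B`, and a
`G`-endomorphism `E` of `A` such that `e (x • E a) = e (x • a)`, `E` kills the `a` with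
`e (x • a) = 0` for all `x`, and every `φ`-equivariant function `G → B` is `x ↦ e (x • a)`.  Then
every class of `Hⁿ(H, B)` is `map φ e n (Hⁿ(E) y)` for some `y ∈ Hⁿ(G, A)`. -/
theorem exists_class_of_glue {k G H : Type u} [CommRing k] [Group G] [Group H] (φ : H →* G)
    (hφ : Function.Injective φ) (A : Rep.{u} k G) (B : Rep.{u} k H) (e : res φ A ⟶ B)
    (E : A ⟶ A)
    (h1 : ∀ (a : A.V) (x : G), e.hom (A.ρ x (E.hom a)) = e.hom (A.ρ x a))
    (h2 : ∀ a : A.V, (∀ x : G, e.hom (A.ρ x a) = 0) → E.hom a = 0)
    (h3 : ∀ F : G → B.V, (∀ (h : H) (x : G), F (φ h * x) = B.ρ h (F x)) →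
      ∃ a : A.V, ∀ x : G, e.hom (A.ρ x a) = F x)
    (n : ℕ) (x : groupCohomology B n) :
    ∃ y : groupCohomology A n, (map φ e n).hom ((map (MonoidHom.id G) E n).hom y) = x := by
  -- every element of the coinduced module is attained
  have glue : ∀ F : (coind φ.range.subtype (rangeRep φ hφ B)).V,
      ∃ a : A.V, (glueEta φ hφ A B e).hom a = F := by
    intro F
    obtain ⟨a, ha⟩ := h3 F.1 (fun h x => by
      have h4 := F.2 (MonoidHom.ofInjective hφ h) x
      have h5 : (rangeRep φ hφ B).ρ (MonoidHom.ofInjective hφ h) (F.1 x) = B.ρ h (F.1 x) := by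
        rw [rangeRep_ρ, MulEquiv.symm_apply_apply]
      rw [← h5]
      exact h4)
    exact ⟨a, Subtype.ext (funext fun x => ha x)⟩
  choose aOf haOf using glue
  have key : ∀ a : A.V, (glueEta φ hφ A B e).hom a = 0 → E.hom a = 0 := by
    intro a ha
    refine h2 a fun x => ?_
    rw [← glueEta_apply φ hφ A B e, ha]
    rfl
  -- the section
  obtain ⟨s, hs⟩ : ∃ s : coind φ.range.subtype (rangeRep φ hφ B) ⟶ A,
      ∀ F, s.hom F = E.hom (aOf F) := by
    let sLin : (coind φ.range.subtype (rangeRep φ hφ B)).V →ₗ[k] A.V :=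
      { toFun := fun F => E.hom (aOf F)
        map_add' := fun F F' => by
          have h4 : E.hom (aOf (F + F') - aOf F - aOf F') = 0 := by
            apply key
            rw [map_sub, map_sub, haOf, haOf, haOf]
            abel
          rw [map_sub, map_sub, sub_sub, sub_eq_zero] at h4
          exact h4
        map_smul' := fun c F => by
          have h4 : E.hom (aOf (c • F) - c • aOf F) = 0 := by
            apply key
            rw [map_sub, map_smul, haOf, haOf, sub_self]
          rw [map_sub, map_smul, sub_eq_zero] at h4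
          exact h4 }
    refine ⟨Rep.ofHom ⟨sLin, fun g => LinearMap.ext fun F => ?_⟩, fun F => rfl⟩
    show E.hom (aOf ((coind φ.range.subtype (rangeRep φ hφ B)).ρ g F)) = A.ρ g (E.hom (aOf F))
    have h4 : E.hom (aOf ((coind φ.range.subtype (rangeRep φ hφ B)).ρ g F) - A.ρ g (aOf F))
        = 0 := by
      apply key
      rw [map_sub, haOf, Rep.hom_comm_apply (glueEta φ hφ A B e) g (aOf F), haOf, sub_self]
    rw [map_sub, sub_eq_zero] at h4
    rw [h4]
    exact Rep.hom_comm_apply E g (aOf F)
  have hsE : ∀ F : (coind φ.range.subtype (rangeRep φ hφ B)).V,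
      e.hom ((s ≫ E).hom F) = F.1 1 := by
    intro F
    show e.hom (E.hom (s.hom F)) = F.1 1
    rw [hs]
    have h5 := h1 (E.hom (aOf F)) 1
    have h6 := h1 (aOf F) 1
    rw [map_one] at h5 h6
    have h7 : e.hom (E.hom (E.hom (aOf F))) = e.hom (aOf F) := h5.trans h6
    rw [h7]
    have h8 : ((glueEta φ hφ A B e).hom (aOf F)).1 1 = e.hom (A.ρ 1 (aOf F)) :=
      glueEta_apply φ hφ A B e (aOf F) 1
    rw [haOf, map_one] at h8
    exact h8.symm
  have hmain := map_comp_section φ hφ A B e (s ≫ E) hsE n
  obtain ⟨z, hz⟩ := shap_surjective φ.range n (rangeRep φ hφ B)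
    ((map (MonoidHom.ofInjective hφ).symm.toMonoidHom (𝟙 (rangeRep φ hφ B)) n).hom x)
  refine ⟨(map (MonoidHom.id G) s n).hom z, ?_⟩
  have h9 := congrArg (fun F => F.hom z) hmain
  rw [map_id_comp] at h9
  have h10 : (map (MonoidHom.ofInjective hφ).toMonoidHom
        (transportBack (MonoidHom.ofInjective hφ) B) n).hom
      ((map (MonoidHom.ofInjective hφ).symm.toMonoidHom (𝟙 (rangeRep φ hφ B)) n).hom x) = x :=
    congrArg (fun F => F.hom x) (map_transport (MonoidHom.ofInjective hφ) B n)
  have h11 : (map φ e n).hom ((map (MonoidHom.id G) E n).hom ((map (MonoidHom.id G) s n).hom z))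
      = (map (MonoidHom.ofInjective hφ).toMonoidHom
          (transportBack (MonoidHom.ofInjective hφ) B) n).hom
        ((shap φ.range (rangeRep φ hφ B) n).hom z) := h9
  rw [h11, hz]
  exact h10

/-- If `e ∘ E = 0` then `map φ e n` kills the image of `Hⁿ(E)`. -/
theorem map_comp_eq_zero {k G H : Type u} [CommRing k] [Group G] [Group H] (φ : H →* G)
    (A : Rep.{u} k G) (B : Rep.{u} k H) (e : res φ A ⟶ B) (E : A ⟶ A)
    (h : ∀ a : A.V, e.hom (E.hom a) = 0) (n : ℕ) (y : groupCohomology A n) :
    (map φ e n).hom ((map (MonoidHom.id G) E n).hom y) = 0 := by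
  have e1 : map (MonoidHom.id G) E n ≫ map φ e n = map φ ((resFunctor φ).map E ≫ e) n := by
    have h1 : cochainsMap (MonoidHom.id G) E ≫ cochainsMap φ e
        = cochainsMap φ ((resFunctor φ).map E ≫ e) := rfl
    have h2 := congrArg (fun F => HomologicalComplex.homologyMap F n) h1
    simp only [HomologicalComplex.homologyMap_comp] at h2
    exact h2
  have e2 : map φ ((resFunctor φ).map E ≫ e) n = map φ (0 : res φ A ⟶ B) n :=
    map_congr rfl (LinearMap.ext fun a => h a) n
  have e3 : map φ (0 : res φ A ⟶ B) n = 0 := by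
    show HomologicalComplex.homologyMap (cochainsMap φ (0 : res φ A ⟶ B)) n = 0
    rw [cochainsMap_zero, HomologicalComplex.homologyMap_zero]
  have e4 := congrArg (fun F => F.hom y) (e1.trans (e2.trans e3))
  exact e4

/-- If `e ∘ E = e` then `map φ e n ∘ Hⁿ(E) = map φ e n`. -/
theorem map_comp_eq_self {k G H : Type u} [CommRing k] [Group G] [Group H] (φ : H →* G)
    (A : Rep.{u} k G) (B : Rep.{u} k H) (e : res φ A ⟶ B) (E : A ⟶ A)
    (h : ∀ a : A.V, e.hom (E.hom a) = e.hom a) (n : ℕ) (y : groupCohomology A n) :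
    (map φ e n).hom ((map (MonoidHom.id G) E n).hom y) = (map φ e n).hom y := by
  have e1 : map (MonoidHom.id G) E n ≫ map φ e n = map φ ((resFunctor φ).map E ≫ e) n := by
    have h1 : cochainsMap (MonoidHom.id G) E ≫ cochainsMap φ e
        = cochainsMap φ ((resFunctor φ).map E ≫ e) := rfl
    have h2 := congrArg (fun F => HomologicalComplex.homologyMap F n) h1
    simp only [HomologicalComplex.homologyMap_comp] at h2
    exact h2
  have e2 : map φ ((resFunctor φ).map E ≫ e) n = map φ e n :=
    map_congr rfl (LinearMap.ext fun a => h a) n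
  exact congrArg (fun F => F.hom y) (e1.trans e2)

end Fermat.Agent.S55.H85
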